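/-
PROGRAMME III (S48, Deligne–Serre), J1-PORT, leaf X1-HECKE-0/1 (helper24):
THE HECKE CORRESPONDENCE OF A PAIR OF FIELDS `F₀ ⊆ F₁ ⊆ ℚ((q))` with `F₀(q^ℓ) ⊆ F₁`.

Field-generic port of the Prelude's `heckeAlphaBar` / `heckeBetaBar` / `heckePic0Bar`, of main's
`Hecke/HeckeInputsGen`, `Jac/HeckeComm.heckeOperatorBar_mk`, `ES/NormCongruence.heckeDivBar_principal`
and `Jac/HeckeGalois` (the instance `F₀ = modularFunctionFieldFull N`, `F₁ = … (N ℓ)` is `X₀`; the
instance `F₀ = K1 M`, `F₁ = K1Lev M ℓ` is `X₁`, see `Inst.lean`).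

* `alphaGen L hle`, `betaGen L ℓ hq : lBC L F₀ →ₐ[L] lBC L F₁` (inclusion, `q ↦ q^ℓ`);
* the side conditions of `Pic0.correspondence` from: `lBC L F₁` finite over `L⟮x⟯`, one transcendental
  element of `lBC L F₀`, `char L = 0`, `HasPrincipalDivisors`;
* `heckeGen : Pic0 L (lBC L F₀) →+ Pic0 L (lBC L F₀)` `= α_* β^*`, `heckeGen_mk`,
  `heckeDivGen_principal : T (div y) = div (Nm_α (β y))`;
* over `ℚ̄`: the coefficientwise Galois action commutes with `heckeGen`.
-/
import Mathlib
import Fermat.Prelude.Def_ModularCurve_HeckeOperator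
import Fermat.Prelude.Thm_ModularCurve_coeffMap_qExpand
import Fermat.Agent.Hecke.HeckeInputs
import Fermat.Agent.Jac.CorrComm
import Fermat.Agent.Jac.CorrGalois

set_option autoImplicit false
set_option linter.unusedSectionVars false
set_option linter.style.haveILetI false

noncomputable section

namespace Fermat.Agent.DS.X1Hecke

open AlgebraicCurve ModularCurve HahnSeries IntermediateField Fermat.Agent.Hecke Fermat.Agent.Jac
  Fermat.Agent.Red

/-! ### the two maps -/

section Maps

variable (L : Type*) [Field L] [Algebra ℚ L]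
variable {F₀ F₁ : IntermediateField ℚ (LaurentSeries ℚ)}

theorem laurentBaseChange_mono (h : F₀ ≤ F₁) :
    laurentBaseChange L F₀ ≤ laurentBaseChange L F₁ := by
  rw [laurentBaseChange, IntermediateField.adjoin_le_iff]
  rintro _ ⟨y, hy, rfl⟩
  exact coeffEmb_mem_laurentBaseChange L (h hy)

theorem coeffEmb_qExpand (n : ℕ) [NeZero n] (x : LaurentSeries ℚ) :
    coeffEmb L (qExpand ℚ n x) = qExpand L n (coeffEmb L x) :=
  coeffMap_qExpand _ n x

variable {L} in
theorem qExpand_mem_laurentBaseChange (n : ℕ) [NeZero n]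
    (hF : ∀ y ∈ F₀, qExpand ℚ n y ∈ F₁) {x : LaurentSeries L}
    (hx : x ∈ laurentBaseChange L F₀) : qExpand L n x ∈ laurentBaseChange L F₁ := by
  rw [mem_laurentBaseChange_iff] at hx
  induction hx using Subfield.closure_induction with
  | mem y hy =>
      rcases hy with ⟨a, rfl⟩ | ⟨z, hz, rfl⟩
      · rw [algebraMap_laurentSeries_eq_single, qExpand_single, mul_zero,
          ← algebraMap_laurentSeries_eq_single]
        exact (laurentBaseChange L F₁).algebraMap_mem _
      · rw [← coeffEmb_qExpand]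
        exact coeffEmb_mem_laurentBaseChange L (hF z hz)
  | one => simp
  | add x y _ _ hx hy => simpa using add_mem hx hy
  | neg x _ hx => simpa using neg_mem hx
  | inv x _ hx => simpa using inv_mem hx
  | mul x y _ _ hx hy => simpa using mul_mem hx hy

/-- `α^*` : the inclusion -/
def alphaGen (hle : F₀ ≤ F₁) : laurentBaseChange L F₀ →ₐ[L] laurentBaseChange L F₁ :=
  IntermediateField.inclusion (laurentBaseChange_mono L hle)

@[simp]
theorem coe_alphaGen (hle : F₀ ≤ F₁) (x : laurentBaseChange L F₀) :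
    (alphaGen L hle x : LaurentSeries L) = (x : LaurentSeries L) :=
  IntermediateField.coe_inclusion _ x

/-- `β^*` : `q ↦ q ^ ℓ` -/
def betaGen (ℓ : ℕ) [NeZero ℓ] (hq : ∀ y ∈ F₀, qExpand ℚ ℓ y ∈ F₁) :
    laurentBaseChange L F₀ →ₐ[L] laurentBaseChange L F₁ where
  toFun x := ⟨qExpand L ℓ (x : LaurentSeries L), qExpand_mem_laurentBaseChange ℓ hq x.2⟩
  map_one' := Subtype.ext (map_one (qExpand L ℓ))
  map_mul' _ _ := Subtype.ext (map_mul (qExpand L ℓ) _ _)
  map_zero' := Subtype.ext (map_zero (qExpand L ℓ))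
  map_add' _ _ := Subtype.ext (map_add (qExpand L ℓ) _ _)
  commutes' a := Subtype.ext <| by
    show qExpand L ℓ (algebraMap L (LaurentSeries L) a) = algebraMap L (LaurentSeries L) a
    rw [algebraMap_laurentSeries_eq_single, qExpand_single, mul_zero]

@[simp]
theorem coe_betaGen (ℓ : ℕ) [NeZero ℓ] (hq : ∀ y ∈ F₀, qExpand ℚ ℓ y ∈ F₁)
    (x : laurentBaseChange L F₀) :
    (betaGen L ℓ hq x : LaurentSeries L) = qExpand L ℓ (x : LaurentSeries L) :=
  rfl

end Maps

/-! ### the side conditions, for every homomorphism -/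

section Inputs

variable {L : Type*} [Field L] [Algebra ℚ L] [CharZero L]
variable {F₀ F₁ : IntermediateField ℚ (LaurentSeries ℚ)}

instance charZero_lBC (F : IntermediateField ℚ (LaurentSeries ℚ)) :
    CharZero (laurentBaseChange L F) :=
  charZero_of_injective_algebraMap (algebraMap L (laurentBaseChange L F)).injective

/-- every `L`-homomorphism between two such fields is finite, as soon as the target is finite over
a rational function field and the source is not algebraic over `L` -/
theorem finiteAlong_of_finite_over (x : laurentBaseChange L F₁)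
    [FiniteDimensional L⟮x⟯ (laurentBaseChange L F₁)] {y : laurentBaseChange L F₀}
    (hy : Transcendental L y) (φ : laurentBaseChange L F₀ →ₐ[L] laurentBaseChange L F₁) :
    FiniteAlong L φ :=
  finiteAlong_of_transcendental φ x hy

variable (φ : laurentBaseChange L F₀ →ₐ[L] laurentBaseChange L F₁) (hfin : FiniteAlong L φ)

include hfin in
theorem isIntegral_of_fin : φ.toRingHom.IsIntegral := isIntegral_of_finiteAlong φ hfin

theorem fundamentalIdentityAlong_of_fin [HasPrincipalDivisors L (laurentBaseChange L F₁)] :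
    FundamentalIdentityAlong L φ (isIntegral_of_fin φ hfin) :=
  fundamentalIdentityAlong_of_finite φ hfin (isSeparable_along_of_charZero φ hfin) _

theorem normFormulaAlong_of_fin : NormFormulaAlong L φ hfin :=
  normFormulaAlong_of_finite φ hfin (isSeparable_along_of_charZero φ hfin)

end Inputs

/-! ### the multiplicative Hecke operator on functions -/

section Norm

variable {L : Type*} [Field L] [Algebra ℚ L]
variable {F₀ F₁ : IntermediateField ℚ (LaurentSeries ℚ)}
variable (hle : F₀ ≤ F₁) (ℓ : ℕ) [NeZero ℓ] (hq : ∀ y ∈ F₀, qExpand ℚ ℓ y ∈ F₁)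

/-- the multiplicative Hecke operator on functions: `y ↦ Nm_α (β y)` -/
def heckeNormGen (y : laurentBaseChange L F₀) : laurentBaseChange L F₀ :=
  normAlong (alphaGen L hle) (betaGen L ℓ hq y)

theorem heckeNormGen_ne_zero (hA : FiniteAlong L (alphaGen L hle)) {y : laurentBaseChange L F₀}
    (hy : y ≠ 0) : heckeNormGen hle ℓ hq y ≠ 0 :=
  normAlong_ne_zero _ hA ((map_ne_zero _).mpr hy)

theorem heckeNormGen_mul (y z : laurentBaseChange L F₀) :
    heckeNormGen hle ℓ hq (y * z) = heckeNormGen hle ℓ hq y * heckeNormGen hle ℓ hq z := by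
  rw [heckeNormGen, map_mul, normAlong_mul]
  rfl

end Norm

/-! ### the Hecke operator `T = α_* β^*` -/

section Hecke

variable {L : Type*} [Field L] [Algebra ℚ L] [CharZero L]
variable {F₀ F₁ : IntermediateField ℚ (LaurentSeries ℚ)}
variable [HasPrincipalDivisors L (laurentBaseChange L F₁)]
variable (hle : F₀ ≤ F₁) (ℓ : ℕ) [NeZero ℓ] (hq : ∀ y ∈ F₀, qExpand ℚ ℓ y ∈ F₁)
variable (hA : FiniteAlong L (alphaGen L hle)) (hB : FiniteAlong L (betaGen L ℓ hq))

/-- the Hecke correspondence on divisors -/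
def heckeDivGen : Divisor L (laurentBaseChange L F₀) →+ Divisor L (laurentBaseChange L F₀) :=
  Divisor.correspondence (betaGen L ℓ hq) (alphaGen L hle) (isIntegral_of_fin _ hB)
    (isIntegral_of_fin _ hA)

/-- **the Hecke operator `T = α_* β^*` on `Pic⁰`** (the Prelude's convention of `heckePic0Bar`) -/
def heckeGen : Pic0 L (laurentBaseChange L F₀) →+ Pic0 L (laurentBaseChange L F₀) :=
  Pic0.correspondence (betaGen L ℓ hq) (alphaGen L hle) (isIntegral_of_fin _ hB)
    (isIntegral_of_fin _ hA) (fundamentalIdentityAlong_of_fin _ hB) hA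
    (normFormulaAlong_of_fin _ hA)

theorem heckeDivGen_mem_degZero {D : Divisor L (laurentBaseChange L F₀)}
    (hD : D ∈ Divisor.degZero (K := L) (F := laurentBaseChange L F₀)) :
    heckeDivGen hle ℓ hq hA hB D ∈ Divisor.degZero (K := L) (F := laurentBaseChange L F₀) :=
  Divisor.correspondence_mem_degZero _ _ _ _ (fundamentalIdentityAlong_of_fin _ hB) hD

/-- `T` on the class of a divisor of degree zero -/
theorem heckeGen_mk (D : Divisor.degZero (K := L) (F := laurentBaseChange L F₀)) :
    heckeGen hle ℓ hq hA hB (Pic0.mk D) =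
      Pic0.mk ⟨heckeDivGen hle ℓ hq hA hB D, heckeDivGen_mem_degZero hle ℓ hq hA hB D.2⟩ :=
  rfl

variable [HasPrincipalDivisors L (laurentBaseChange L F₀)]

/-- **on principal divisors the Hecke correspondence is the norm**: `T (div y) = div (Nm_α (β y))` -/
theorem heckeDivGen_divOf {y : laurentBaseChange L F₀} (hy : y ≠ 0) :
    heckeDivGen hle ℓ hq hA hB (divOf L y) = divOf L (heckeNormGen hle ℓ hq y) :=
  correspondence_divOf _ _ _ _ hA (normFormulaAlong_of_fin _ hA) hy

/-- pointwise form (as `ES.heckeDivBar_principal`) -/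
theorem heckeDivGen_principal (y : laurentBaseChange L F₀) (hy : y ≠ 0)
    (D : Divisor L (laurentBaseChange L F₀)) (hD : ∀ P, D P = P.ord y)
    (P : Place L (laurentBaseChange L F₀)) :
    heckeDivGen hle ℓ hq hA hB D P = P.ord (heckeNormGen hle ℓ hq y) := by
  have e : D = divOf L y := by
    ext Q
    rw [hD Q, divOf_apply]
  rw [e, heckeDivGen_divOf hle ℓ hq hA hB hy, divOf_apply]

theorem heckeDivGen_nonneg {D : Divisor L (laurentBaseChange L F₀)} (hD : 0 ≤ D) :
    0 ≤ heckeDivGen hle ℓ hq hA hB D :=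
  correspondence_nonneg _ _ _ _ hD

theorem degree_heckeDivGen (D : Divisor L (laurentBaseChange L F₀)) :
    Divisor.degree (heckeDivGen hle ℓ hq hA hB D) =
      (finrankAlong L (betaGen L ℓ hq) : ℤ) * Divisor.degree D :=
  Divisor.degree_correspondence _ _ _ _ (fundamentalIdentityAlong_of_fin _ hB) D

end Hecke

/-! ### equivariance: a compatible pair of semilinear automorphisms commutes with `T` -/

section Equivariance

variable {L : Type*} [Field L] [Algebra ℚ L] [CharZero L]
variable {F₀ F₁ : IntermediateField ℚ (LaurentSeries ℚ)}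
variable (hle : F₀ ≤ F₁) (ℓ : ℕ) [NeZero ℓ] (hq : ∀ y ∈ F₀, qExpand ℚ ℓ y ∈ F₁)
variable (g₀ : SemilinearAut L (laurentBaseChange L F₀))
  (g₁ : SemilinearAut L (laurentBaseChange L F₁))

/-- norms along `α` commute with a pair of automorphisms compatible with `α` -/
theorem normAlong_alphaGen_smul
    (hα : ∀ y, alphaGen L hle (g₀ • y) = g₁ • alphaGen L hle y) (z : laurentBaseChange L F₁) :
    normAlong (alphaGen L hle) (g₁ • z) = g₀ • normAlong (alphaGen L hle) z := by
  letI := algebraAlong (alphaGen L hle)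
  have he : RingHom.comp (algebraMap (laurentBaseChange L F₀) (laurentBaseChange L F₁))
        ((SemilinearAut.toRingAut g₀ : laurentBaseChange L F₀ ≃+* laurentBaseChange L F₀) :
          laurentBaseChange L F₀ →+* laurentBaseChange L F₀) =
      RingHom.comp ((SemilinearAut.toRingAut g₁ :
          laurentBaseChange L F₁ ≃+* laurentBaseChange L F₁) :
        laurentBaseChange L F₁ →+* laurentBaseChange L F₁)
        (algebraMap (laurentBaseChange L F₀) (laurentBaseChange L F₁)) :=
    RingHom.ext fun y => hα y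
  have h := Algebra.norm_eq_of_equiv_equiv (SemilinearAut.toRingAut g₀)
    (SemilinearAut.toRingAut g₁) he z
  show Algebra.norm (laurentBaseChange L F₀) (SemilinearAut.toRingAut g₁ z) =
    SemilinearAut.toRingAut g₀ (Algebra.norm (laurentBaseChange L F₀) z)
  rw [h, RingEquiv.apply_symm_apply]

/-- the multiplicative Hecke operator commutes with a compatible pair -/
theorem heckeNormGen_smul
    (hα : ∀ y, alphaGen L hle (g₀ • y) = g₁ • alphaGen L hle y)
    (hβ : ∀ y, betaGen L ℓ hq (g₀ • y) = g₁ • betaGen L ℓ hq y) (y : laurentBaseChange L F₀) :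
    heckeNormGen hle ℓ hq (g₀ • y) = g₀ • heckeNormGen hle ℓ hq y := by
  rw [heckeNormGen, hβ, normAlong_alphaGen_smul hle g₀ g₁ hα]
  rfl

variable [HasPrincipalDivisors L (laurentBaseChange L F₁)]
variable (hA : FiniteAlong L (alphaGen L hle)) (hB : FiniteAlong L (betaGen L ℓ hq))

/-- the Hecke correspondence commutes with a compatible pair on `Div⁰` -/
theorem heckeDivGen_smul (hF : RiemannPkg L (laurentBaseChange L F₀))
    (hα : ∀ y, alphaGen L hle (g₀ • y) = g₁ • alphaGen L hle y)
    (hβ : ∀ y, betaGen L ℓ hq (g₀ • y) = g₁ • betaGen L ℓ hq y)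
    (D : Divisor L (laurentBaseChange L F₀)) (hD : Divisor.degree D = 0) :
    heckeDivGen hle ℓ hq hA hB (g₀ • D) = g₀ • heckeDivGen hle ℓ hq hA hB D := by
  haveI := hF.principal
  exact smul_comm_of_comm_on_functions hF g₀ (heckeDivGen hle ℓ hq hA hB)
    (fun _ hD => heckeDivGen_nonneg hle ℓ hq hA hB hD)
    (finrankAlong L (betaGen L ℓ hq) : ℤ) (degree_heckeDivGen hle ℓ hq hA hB)
    (heckeNormGen hle ℓ hq) (fun _ hf => heckeDivGen_divOf hle ℓ hq hA hB hf)
    (fun f _ => congrArg (divOf L) (heckeNormGen_smul hle ℓ hq g₀ g₁ hα hβ f)) D hD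

/-- **`T` commutes with a compatible pair of semilinear automorphisms on `Pic⁰`** -/
theorem heckeGen_smul (hF : RiemannPkg L (laurentBaseChange L F₀))
    (hα : ∀ y, alphaGen L hle (g₀ • y) = g₁ • alphaGen L hle y)
    (hβ : ∀ y, betaGen L ℓ hq (g₀ • y) = g₁ • betaGen L ℓ hq y)
    (x : Pic0 L (laurentBaseChange L F₀)) :
    heckeGen hle ℓ hq hA hB (g₀ • x) = g₀ • heckeGen hle ℓ hq hA hB x := by
  obtain ⟨D, rfl⟩ := Pic0.mk_surjective x
  rw [SemilinearAut.pic0_smul_mk, heckeGen_mk, heckeGen_mk, SemilinearAut.pic0_smul_mk]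
  refine congrArg Pic0.mk (Subtype.ext ?_)
  exact heckeDivGen_smul hle ℓ hq g₀ g₁ hA hB hF hα hβ (D : Divisor L (laurentBaseChange L F₀))
    (Divisor.mem_degZero.mp D.2)

/-! #### the coefficientwise Galois action -/

theorem alphaGen_galois (σ : L ≃ₐ[ℚ] L) (y : laurentBaseChange L F₀) :
    alphaGen L hle (arithmeticGalois F₀ σ • y) = arithmeticGalois F₁ σ • alphaGen L hle y := by
  apply Subtype.ext
  rw [coe_alphaGen, coe_arithmeticGalois_smul, coe_arithmeticGalois_smul, coe_alphaGen]

theorem betaGen_galois (σ : L ≃ₐ[ℚ] L) (y : laurentBaseChange L F₀) :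
    betaGen L ℓ hq (arithmeticGalois F₀ σ • y) = arithmeticGalois F₁ σ • betaGen L ℓ hq y := by
  apply Subtype.ext
  rw [coe_betaGen, coe_arithmeticGalois_smul, coe_arithmeticGalois_smul, coe_betaGen,
    coeffMap_qExpand]

/-- **the Galois action (on coefficients) commutes with the Hecke operator** -/
theorem heckeGen_galois_smul (hF : RiemannPkg L (laurentBaseChange L F₀)) (σ : L ≃ₐ[ℚ] L)
    (x : Pic0 L (laurentBaseChange L F₀)) :
    heckeGen hle ℓ hq hA hB (σ • x) = σ • heckeGen hle ℓ hq hA hB x :=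
  heckeGen_smul hle ℓ hq (arithmeticGalois F₀ σ) (arithmeticGalois F₁ σ) hA hB hF
    (alphaGen_galois hle σ) (betaGen_galois ℓ hq σ) x

/-! #### geometric automorphisms (the diamond operators) -/

/-- **`T` commutes with an `L`-automorphism of the lower field which extends to the upper field
compatibly with both maps** (the shape of the diamond operators `⟨d⟩`). -/
theorem heckeGen_algAut_smul (hF : RiemannPkg L (laurentBaseChange L F₀))
    (τ₀ : laurentBaseChange L F₀ ≃ₐ[L] laurentBaseChange L F₀)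
    (τ₁ : laurentBaseChange L F₁ ≃ₐ[L] laurentBaseChange L F₁)
    (hα : ∀ y, alphaGen L hle (τ₀ y) = τ₁ (alphaGen L hle y))
    (hβ : ∀ y, betaGen L ℓ hq (τ₀ y) = τ₁ (betaGen L ℓ hq y))
    (x : Pic0 L (laurentBaseChange L F₀)) :
    heckeGen hle ℓ hq hA hB (SemilinearAut.ofAlgAut τ₀ • x) =
      SemilinearAut.ofAlgAut τ₀ • heckeGen hle ℓ hq hA hB x :=
  heckeGen_smul hle ℓ hq (SemilinearAut.ofAlgAut τ₀) (SemilinearAut.ofAlgAut τ₁) hA hB hF hα hβ x

end Equivariance

/-! ### commutation of two Hecke operators from commutation on functions -/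

section Comm

variable {L : Type*} [Field L] [Algebra ℚ L] [CharZero L]
variable {F₀ F₁ F₁' : IntermediateField ℚ (LaurentSeries ℚ)}
variable [HasPrincipalDivisors L (laurentBaseChange L F₀)]
  [HasPrincipalDivisors L (laurentBaseChange L F₁)]
  [HasPrincipalDivisors L (laurentBaseChange L F₁')]
variable (hle : F₀ ≤ F₁) (ℓ : ℕ) [NeZero ℓ] (hq : ∀ y ∈ F₀, qExpand ℚ ℓ y ∈ F₁)
variable (hA : FiniteAlong L (alphaGen L hle)) (hB : FiniteAlong L (betaGen L ℓ hq))
variable (hle' : F₀ ≤ F₁') (ℓ' : ℕ) [NeZero ℓ'] (hq' : ∀ y ∈ F₀, qExpand ℚ ℓ' y ∈ F₁')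
variable (hA' : FiniteAlong L (alphaGen L hle')) (hB' : FiniteAlong L (betaGen L ℓ' hq'))

/-- `T T' = T' T` on `Div⁰` as soon as the multiplicative operators commute on functions up to
constants -/
theorem heckeDivGen_comm (hF : RiemannPkg L (laurentBaseChange L F₀))
    (h : ∀ y : laurentBaseChange L F₀, y ≠ 0 →
      divOf L (heckeNormGen hle ℓ hq (heckeNormGen hle' ℓ' hq' y)) =
        divOf L (heckeNormGen hle' ℓ' hq' (heckeNormGen hle ℓ hq y)))
    (D : Divisor L (laurentBaseChange L F₀)) (hD : Divisor.degree D = 0) :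
    heckeDivGen hle ℓ hq hA hB (heckeDivGen hle' ℓ' hq' hA' hB' D) =
      heckeDivGen hle' ℓ' hq' hA' hB' (heckeDivGen hle ℓ hq hA hB D) :=
  comp_comm_of_comm_on_functions hF (heckeDivGen hle ℓ hq hA hB)
    (heckeDivGen hle' ℓ' hq' hA' hB') (fun _ hD => heckeDivGen_nonneg hle ℓ hq hA hB hD)
    (fun _ hD => heckeDivGen_nonneg hle' ℓ' hq' hA' hB' hD) _ _
    (degree_heckeDivGen hle ℓ hq hA hB) (degree_heckeDivGen hle' ℓ' hq' hA' hB')
    (heckeNormGen hle ℓ hq) (heckeNormGen hle' ℓ' hq')
    (fun _ hf => heckeNormGen_ne_zero hle ℓ hq hA hf)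
    (fun _ hf => heckeNormGen_ne_zero hle' ℓ' hq' hA' hf)
    (fun _ hf => heckeDivGen_divOf hle ℓ hq hA hB hf)
    (fun _ hf => heckeDivGen_divOf hle' ℓ' hq' hA' hB' hf) h D hD

/-- **two Hecke operators commute on `Pic⁰`** as soon as the multiplicative operators commute on
functions up to constants -/
theorem heckeGen_comm (hF : RiemannPkg L (laurentBaseChange L F₀))
    (h : ∀ y : laurentBaseChange L F₀, y ≠ 0 →
      divOf L (heckeNormGen hle ℓ hq (heckeNormGen hle' ℓ' hq' y)) =
        divOf L (heckeNormGen hle' ℓ' hq' (heckeNormGen hle ℓ hq y)))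
    (x : Pic0 L (laurentBaseChange L F₀)) :
    heckeGen hle ℓ hq hA hB (heckeGen hle' ℓ' hq' hA' hB' x) =
      heckeGen hle' ℓ' hq' hA' hB' (heckeGen hle ℓ hq hA hB x) := by
  obtain ⟨D, rfl⟩ := Pic0.mk_surjective x
  rw [heckeGen_mk, heckeGen_mk, heckeGen_mk, heckeGen_mk]
  refine congrArg Pic0.mk (Subtype.ext ?_)
  exact heckeDivGen_comm hle ℓ hq hA hB hle' ℓ' hq' hA' hB' hF h
    (D : Divisor L (laurentBaseChange L F₀)) (Divisor.mem_degZero.mp D.2)

end Comm

end Fermat.Agent.DS.X1Hecke
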