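/-
PROGRAMME III (S48, Deligne–Serre), J1-PORT, leaf X1-HECKE-0/1 (helper24): THE INSTANCE `X₁(M)`.

`F₀ := K1 M`, `F₁ := K1Lev M ℓ` (helper23's model `DS/X1/Defs.lean`) in the generic Hecke
correspondence of `Gen.lean`:

* `K1L L M`, `K1LevL L M ℓ` : the function fields over an arbitrary `L ⊇ ℚ`;
* `alphaOneBar L M ℓ`, `betaOneBar L M ℓ : K1L L M →ₐ[L] K1LevL L M ℓ` (+ `coe_…` lemmas);
* `jOne L M : K1L L M` (the series `j(q)`), transcendental over `L`;
* `LevInputs L M ℓ` : the three side conditions, and `levInputs_of_finite` (they follow from ONE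
  finiteness statement at level `(M; ℓ)`, `L` algebraically closed of characteristic zero);
* `heckeOne h : Pic0 L (K1L L M) →+ Pic0 L (K1L L M)`, `heckeOne_mk`, `heckeOne_galois_smul`,
  `heckeOne_algAut_smul` (diamonds), `heckeOne_comm`.
-/
import Mathlib
import Fermat.Agent.DS.X1.Defs
import Fermat.Agent.DS.X1Hecke.Gen
import Fermat.Agent.Hecke.HeckeInputsGen
import Fermat.Agent.FF.RiemannPkg

set_option autoImplicit false
set_option linter.unusedSectionVars false
set_option linter.style.haveILetI false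

noncomputable section

namespace Fermat.Agent.DS.X1Hecke

open AlgebraicCurve ModularCurve HahnSeries IntermediateField Fermat.Agent.Hecke Fermat.Agent.Jac
  Fermat.Agent.Red Fermat.Agent.DS.X1

/-! ### generic: the Riemann package of `laurentBaseChange L F` from one finiteness statement -/

section Pkg

/-- in characteristic zero, over an algebraically closed field: the Riemann package from one
finiteness statement -/
theorem riemannPkg_of_charZero {K F : Type*} [Field K] [Field F] [Algebra K F] [IsAlgClosed K]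
    [CharZero K] {x : F} (hx : Transcendental K x) [FiniteDimensional K⟮x⟯ F] :
    RiemannPkg K F := by
  haveI : CharZero K⟮x⟯ := charZero_of_injective_algebraMap (algebraMap K K⟮x⟯).injective
  haveI : Algebra.IsSeparable K⟮x⟯ F := Algebra.IsAlgebraic.isSeparable_of_perfectField
  exact Fermat.Agent.FF.riemannPkg_of hx

variable {L : Type*} [Field L] [Algebra ℚ L] [CharZero L] [IsAlgClosed L]
variable {F : IntermediateField ℚ (LaurentSeries ℚ)}

/-- over an algebraically closed field of characteristic zero, `laurentBaseChange L F` has the full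
Riemann package as soon as it is finite over `L(x)` for one transcendental `x` -/
theorem riemannPkg_lBC (x : laurentBaseChange L F) (hx : Transcendental L x)
    [FiniteDimensional L⟮x⟯ (laurentBaseChange L F)] : RiemannPkg L (laurentBaseChange L F) :=
  riemannPkg_of_charZero hx

end Pkg

/-! ### the fields and the two degeneracy maps -/

section Maps

variable (L : Type*) [Field L] [Algebra ℚ L] (M ℓ : ℕ) [NeZero M] [NeZero ℓ]

/-- the function field of `X₁(M)` over `L` -/
abbrev K1L : IntermediateField L (LaurentSeries L) := laurentBaseChange L (K1 M)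

/-- the function field of `X(Γ₁(M) ∩ Γ₀(ℓ))` over `L` -/
abbrev K1LevL : IntermediateField L (LaurentSeries L) := laurentBaseChange L (K1Lev M ℓ)

/-- `α^*` : forget the subgroup (inclusion) -/
def alphaOneBar : K1L L M →ₐ[L] K1LevL L M ℓ := alphaGen L (K1_le_K1Lev M ℓ)

/-- `β^*` : `q ↦ q ^ ℓ` -/
def betaOneBar : K1L L M →ₐ[L] K1LevL L M ℓ :=
  betaGen L ℓ (fun _ hy => qExpand_mem_K1Lev M ℓ hy)

@[simp]
theorem coe_alphaOneBar (x : K1L L M) :
    (alphaOneBar L M ℓ x : LaurentSeries L) = (x : LaurentSeries L) :=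
  coe_alphaGen L _ x

@[simp]
theorem coe_betaOneBar (x : K1L L M) :
    (betaOneBar L M ℓ x : LaurentSeries L) = qExpand L ℓ (x : LaurentSeries L) :=
  rfl

theorem jq_mem_K1 : jq ∈ K1 M := by
  have h := jqd_mem_full M (one_dvd M)
  rw [qExpand_one_apply] at h
  exact modularFunctionFieldFull_le_K1 M h

/-- the series `j(q)` as an element of `K1L L M` (the base variable, convention C2) -/
def jOne : K1L L M := ⟨coeffEmb L jq, coeffEmb_mem_laurentBaseChange L (jq_mem_K1 M)⟩

@[simp]
theorem coe_jOne : ((jOne L M : K1L L M) : LaurentSeries L) = coeffEmb L jq := rfl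

theorem jOne_transcendental : Transcendental L (jOne L M) := by
  have h := Fermat.Agent.Hecke.Gen.transcendental_coeffEmb_jq_gen L
  rw [transcendental_iff] at h ⊢
  intro p hp
  apply h
  have h2 := congrArg (fun x : K1L L M => (x : LaurentSeries L)) hp
  have h3 : ((Polynomial.aeval (jOne L M) p : K1L L M) : LaurentSeries L)
      = Polynomial.aeval ((jOne L M : K1L L M) : LaurentSeries L) p := by
    rw [← IntermediateField.algebraMap_apply, ← Polynomial.aeval_algebraMap_apply]
    rfl
  change ((Polynomial.aeval (jOne L M) p : K1L L M) : LaurentSeries L) = 0 at h2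
  rw [h3, coe_jOne] at h2
  exact h2

end Maps

/-! ### the side conditions -/

section Inputs

variable (L : Type*) [Field L] [Algebra ℚ L] (M ℓ : ℕ) [NeZero M] [NeZero ℓ]

/-- the side conditions of the Hecke correspondence `T_ℓ` of `X₁(M)` over `L` -/
structure LevInputs : Prop where
  princ : HasPrincipalDivisors L (K1LevL L M ℓ)
  finA : FiniteAlong L (alphaOneBar L M ℓ)
  finB : FiniteAlong L (betaOneBar L M ℓ)

variable {L M ℓ}

/-- ONE finiteness statement at level `(M; ℓ)` gives all side conditions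
(`L` algebraically closed of characteristic zero) -/
theorem levInputs_of_finite [CharZero L] [IsAlgClosed L] (x : K1LevL L M ℓ)
    (hx : Transcendental L x) [FiniteDimensional L⟮x⟯ (K1LevL L M ℓ)] : LevInputs L M ℓ where
  princ := (riemannPkg_lBC x hx).principal
  finA := finiteAlong_of_finite_over x (jOne_transcendental L M) _
  finB := finiteAlong_of_finite_over x (jOne_transcendental L M) _

/-- over any `L` of characteristic zero: from `HasPrincipalDivisors` and finiteness -/
theorem levInputs_of_finite' [CharZero L] [HasPrincipalDivisors L (K1LevL L M ℓ)]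
    (x : K1LevL L M ℓ) [FiniteDimensional L⟮x⟯ (K1LevL L M ℓ)] : LevInputs L M ℓ where
  princ := inferInstance
  finA := finiteAlong_of_finite_over x (jOne_transcendental L M) _
  finB := finiteAlong_of_finite_over x (jOne_transcendental L M) _

end Inputs

/-! ### the Hecke operator `T_ℓ` of `X₁(M)` -/

section Hecke

variable {L : Type*} [Field L] [Algebra ℚ L] [CharZero L] {M ℓ : ℕ} [NeZero M] [NeZero ℓ]

/-- the Hecke correspondence `T_ℓ = α_* β^*` on the divisors of `X₁(M)` -/
def heckeDivOne (h : LevInputs L M ℓ) : Divisor L (K1L L M) →+ Divisor L (K1L L M) :=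
  haveI := h.princ
  heckeDivGen (K1_le_K1Lev M ℓ) ℓ (fun _ hy => qExpand_mem_K1Lev M ℓ hy) h.finA h.finB

/-- **the Hecke operator `T_ℓ = α_* β^*` on `Pic⁰` of `X₁(M)`** -/
def heckeOne (h : LevInputs L M ℓ) : Pic0 L (K1L L M) →+ Pic0 L (K1L L M) :=
  haveI := h.princ
  heckeGen (K1_le_K1Lev M ℓ) ℓ (fun _ hy => qExpand_mem_K1Lev M ℓ hy) h.finA h.finB

/-- the multiplicative Hecke operator on functions: `y ↦ Nm_α (β y)` -/
def heckeNormOne (M ℓ : ℕ) [NeZero M] [NeZero ℓ] (y : K1L L M) : K1L L M :=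
  normAlong (alphaOneBar L M ℓ) (betaOneBar L M ℓ y)

theorem heckeDivOne_mem_degZero (h : LevInputs L M ℓ) {D : Divisor L (K1L L M)}
    (hD : D ∈ Divisor.degZero (K := L) (F := K1L L M)) :
    heckeDivOne h D ∈ Divisor.degZero (K := L) (F := K1L L M) :=
  haveI := h.princ
  heckeDivGen_mem_degZero _ ℓ _ h.finA h.finB hD

theorem heckeOne_mk (h : LevInputs L M ℓ) (D : Divisor.degZero (K := L) (F := K1L L M)) :
    heckeOne h (Pic0.mk D) = Pic0.mk ⟨heckeDivOne h D, heckeDivOne_mem_degZero h D.2⟩ :=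
  rfl

/-- `T_ℓ (div y) = div (Nm_α (β y))` -/
theorem heckeDivOne_divOf [HasPrincipalDivisors L (K1L L M)] (h : LevInputs L M ℓ) {y : K1L L M}
    (hy : y ≠ 0) : heckeDivOne h (divOf L y) = divOf L (heckeNormOne M ℓ y) :=
  haveI := h.princ
  heckeDivGen_divOf _ ℓ _ h.finA h.finB hy

theorem heckeNormOne_ne_zero (h : LevInputs L M ℓ) {y : K1L L M} (hy : y ≠ 0) :
    heckeNormOne M ℓ y ≠ 0 :=
  heckeNormGen_ne_zero _ ℓ _ h.finA hy

/-- **the Galois action (on coefficients) commutes with `T_ℓ`** -/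
theorem heckeOne_galois_smul (h : LevInputs L M ℓ) (hF : RiemannPkg L (K1L L M))
    (σ : L ≃ₐ[ℚ] L) (x : Pic0 L (K1L L M)) : heckeOne h (σ • x) = σ • heckeOne h x :=
  haveI := h.princ
  heckeGen_galois_smul _ ℓ _ h.finA h.finB hF σ x

/-- **`T_ℓ` commutes with every `L`-automorphism of `K1L L M` which extends to level `(M; ℓ)`
compatibly with `α` and `β`** (the diamond operators) -/
theorem heckeOne_algAut_smul (h : LevInputs L M ℓ) (hF : RiemannPkg L (K1L L M))
    (τ₀ : K1L L M ≃ₐ[L] K1L L M) (τ₁ : K1LevL L M ℓ ≃ₐ[L] K1LevL L M ℓ)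
    (hα : ∀ y, alphaOneBar L M ℓ (τ₀ y) = τ₁ (alphaOneBar L M ℓ y))
    (hβ : ∀ y, betaOneBar L M ℓ (τ₀ y) = τ₁ (betaOneBar L M ℓ y)) (x : Pic0 L (K1L L M)) :
    heckeOne h (SemilinearAut.ofAlgAut τ₀ • x) = SemilinearAut.ofAlgAut τ₀ • heckeOne h x :=
  haveI := h.princ
  heckeGen_algAut_smul _ ℓ _ h.finA h.finB hF τ₀ τ₁ hα hβ x

/-- **`T_ℓ T_ℓ' = T_ℓ' T_ℓ`** as soon as the multiplicative operators commute on functions up to
constants -/
theorem heckeOne_comm {ℓ' : ℕ} [NeZero ℓ'] (h : LevInputs L M ℓ) (h' : LevInputs L M ℓ')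
    (hF : RiemannPkg L (K1L L M))
    (hc : haveI := hF.principal
      ∀ y : K1L L M, y ≠ 0 →
      divOf L (heckeNormOne M ℓ (heckeNormOne M ℓ' y)) =
        divOf L (heckeNormOne M ℓ' (heckeNormOne M ℓ y)))
    (x : Pic0 L (K1L L M)) : heckeOne h (heckeOne h' x) = heckeOne h' (heckeOne h x) :=
  haveI := h.princ
  haveI := h'.princ
  haveI := hF.principal
  heckeGen_comm _ ℓ _ h.finA h.finB _ ℓ' _ h'.finA h'.finB hF hc x

end Hecke

/-! ### `J₁(M)` -/

section JOne

variable {M ℓ : ℕ} [NeZero M] [NeZero ℓ]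

/-- `T_ℓ` on `J₁(M)(ℚ̄)` -/
abbrev heckeJOne (h : LevInputs (AlgebraicClosure ℚ) M ℓ) : JOne M →+ JOne M := heckeOne h

example (h : LevInputs (AlgebraicClosure ℚ) M ℓ)
    (hF : RiemannPkg (AlgebraicClosure ℚ) (K1Bar M))
    (σ : AlgebraicClosure ℚ ≃ₐ[ℚ] AlgebraicClosure ℚ) (x : JOne M) :
    heckeJOne h (σ • x) = σ • heckeJOne h x :=
  heckeOne_galois_smul h hF σ x

end JOne

end Fermat.Agent.DS.X1Hecke
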