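/-
PROGRAMME III (S48, Deligne–Serre), J1-PORT, leaf X1-HECKE-2 (helper24):
`T_ℓ T_ℓ' = T_ℓ' T_ℓ` ON `J₁(M)` FROM THE PRODUCT FORMULAS WITH NEBENTYPUS.

For `X₁(M)` the product formula carries the diamond (helper1, finding #1991):
`(Nm_α (β y))(q^ℓ) = y(q^{ℓ²}) · ∏_{ξ ∈ μ_ℓ} (⟨ℓ⟩ y)(ξ q)`.

* `comm_of_twistedProductFormula` : ABSTRACT (series level, twin of `Jac.comm_of_productFormula`):
  two operators `M`, `M'` with twisted product formulas (twists `δ`, `δ'`) commute as soon as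
  `δ M' = M' δ`, `δ' M = M δ'`, `δ δ' = δ' δ` and `ℓ`, `ℓ'` are coprime;
* `heckeNormOne_algAut` : a diamond (an automorphism extending to level `(M; ℓ)` compatibly with
  `α`, `β`) commutes with the multiplicative Hecke operator;
* `heckeNormOne_comm`, `heckeOne_comm_of_productFormula` : the instance.
-/
import Mathlib
import Fermat.Agent.DS.X1Hecke.Inst
import Fermat.Agent.Jac.MultHecke

set_option autoImplicit false
set_option linter.unusedSectionVars false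
set_option linter.style.haveILetI false

noncomputable section

namespace Fermat.Agent.DS.X1Hecke

open AlgebraicCurve ModularCurve HahnSeries IntermediateField Fermat.Agent.Hecke Fermat.Agent.Jac
  Fermat.Agent.Red Fermat.Agent.DS.X1 Fermat.Agent.Igusa

/-! ### series level -/

section Series

variable {C : Type*} [CommRing C] [IsDomain C]

/-- **Abstract consequence of two product formulas with twists.**  `ι : X → C((q))` injective,
`M M' δ δ' : X → X` with `(M y)(q^ℓ) = y(q^{ℓ²}) · ∏_{ξ∈μ_ℓ} (δ y)(ξ q)` and the same for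
`(M', δ', ℓ')`, `ℓ` and `ℓ'` coprime, `δ M' = M' δ`, `δ' M = M δ'`, `δ δ' = δ' δ`.
Then `M M' = M' M`. -/
theorem comm_of_twistedProductFormula {ℓ ℓ' : ℕ} [NeZero ℓ] [NeZero ℓ'] (h : Nat.Coprime ℓ ℓ')
    {X : Type*} (ι : X → LaurentSeries C) (hι : Function.Injective ι) (M M' δ δ' : X → X)
    (hPF : ∀ y, qExpand C ℓ (ι (M y)) = qExpand C (ℓ * ℓ) (ι y) * rootProd ℓ (ι (δ y)))
    (hPF' : ∀ y, qExpand C ℓ' (ι (M' y)) = qExpand C (ℓ' * ℓ') (ι y) * rootProd ℓ' (ι (δ' y)))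
    (hδM' : ∀ y, δ (M' y) = M' (δ y)) (hδ'M : ∀ y, δ' (M y) = M (δ' y))
    (hδδ' : ∀ y, δ (δ' y) = δ' (δ y)) (y : X) : M (M' y) = M' (M y) := by
  have h1 : Nat.Coprime (ℓ * ℓ) ℓ' := Nat.Coprime.mul_left h h
  have h2 : Nat.Coprime (ℓ' * ℓ') ℓ := Nat.Coprime.mul_left h.symm h.symm
  apply hι
  apply qExpand_injective (R := C) (ℓ' * ℓ)
  have e1 : qExpand C (ℓ' * ℓ) (ι (M (M' y))) =
      qExpand C (ℓ * ℓ) (qExpand C (ℓ' * ℓ') (ι y)) *
        rootProd ℓ' (qExpand C (ℓ * ℓ) (ι (δ' y))) *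
        (rootProd ℓ (qExpand C (ℓ' * ℓ') (ι (δ y))) *
          rootProd ℓ (rootProd ℓ' (ι (δ' (δ y))))) := by
    rw [← qExpand_qExpand, hPF, map_mul, qExpand_rootProd ℓ h.symm, hδM', hPF', rootProd_mul]
    have e : qExpand C ℓ' (qExpand C (ℓ * ℓ) (ι (M' y))) =
        qExpand C (ℓ * ℓ) (qExpand C ℓ' (ι (M' y))) := by
      rw [qExpand_qExpand, qExpand_qExpand]
      exact qExpand_congr (mul_comm _ _) _
    rw [e, hPF', map_mul, qExpand_rootProd ℓ' h1]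
  have e2 : qExpand C (ℓ' * ℓ) (ι (M' (M y))) =
      qExpand C (ℓ' * ℓ') (qExpand C (ℓ * ℓ) (ι y)) *
        rootProd ℓ (qExpand C (ℓ' * ℓ') (ι (δ y))) *
        (rootProd ℓ' (qExpand C (ℓ * ℓ) (ι (δ' y))) *
          rootProd ℓ' (rootProd ℓ (ι (δ (δ' y))))) := by
    rw [qExpand_congr (mul_comm ℓ' ℓ), ← qExpand_qExpand, hPF', map_mul,
      qExpand_rootProd ℓ' h, hδ'M, hPF, rootProd_mul]
    have e : qExpand C ℓ (qExpand C (ℓ' * ℓ') (ι (M y))) =
        qExpand C (ℓ' * ℓ') (qExpand C ℓ (ι (M y))) := by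
      rw [qExpand_qExpand, qExpand_qExpand]
      exact qExpand_congr (mul_comm _ _) _
    rw [e, hPF, map_mul, qExpand_rootProd ℓ h2]
  have e3 : qExpand C (ℓ * ℓ) (qExpand C (ℓ' * ℓ') (ι y)) =
      qExpand C (ℓ' * ℓ') (qExpand C (ℓ * ℓ) (ι y)) := by
    rw [qExpand_qExpand, qExpand_qExpand]
    exact qExpand_congr (mul_comm _ _) _
  rw [e1, e2, e3, rootProd_comm ℓ ℓ', hδδ']
  ring

end Series

/-! ### the instance `X₁(M)` -/

section Inst

variable {L : Type*} [Field L] [Algebra ℚ L] [CharZero L] {M : ℕ} [NeZero M]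

/-- `δ` (an automorphism of the function field of `X₁(M)`, e.g. a diamond operator) extends to
level `(M; p)` compatibly with both degeneracy maps (AN-4: "diamonds commute with `q ↦ q^p` on
`K1Lev M p`") -/
def ExtendsToLevel (δ : K1L L M ≃ₐ[L] K1L L M) (p : ℕ) [NeZero p] : Prop :=
  ∃ τ : K1LevL L M p ≃ₐ[L] K1LevL L M p,
    (∀ y, alphaOneBar L M p (δ y) = τ (alphaOneBar L M p y)) ∧
      (∀ y, betaOneBar L M p (δ y) = τ (betaOneBar L M p y))

/-- an automorphism extending to level `(M; p)` commutes with the multiplicative Hecke operator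
`y ↦ Nm_α (β y)` -/
theorem heckeNormOne_algAut {p : ℕ} [NeZero p] (δ : K1L L M ≃ₐ[L] K1L L M)
    (hδ : ExtendsToLevel δ p) (y : K1L L M) :
    heckeNormOne M p (δ y) = δ (heckeNormOne M p y) := by
  obtain ⟨τ, hα, hβ⟩ := hδ
  exact heckeNormGen_smul _ p _ (SemilinearAut.ofAlgAut δ) (SemilinearAut.ofAlgAut τ) hα hβ y

/-- … and with `T_p` on `Pic⁰` -/
theorem heckeOne_algAut_smul_of_extends {p : ℕ} [NeZero p] (h : LevInputs L M p)
    (hF : RiemannPkg L (K1L L M)) (δ : K1L L M ≃ₐ[L] K1L L M) (hδ : ExtendsToLevel δ p)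
    (x : Pic0 L (K1L L M)) :
    heckeOne h (SemilinearAut.ofAlgAut δ • x) = SemilinearAut.ofAlgAut δ • heckeOne h x := by
  obtain ⟨τ, hα, hβ⟩ := hδ
  exact heckeOne_algAut_smul h hF δ τ hα hβ x

/-- **the product formula with nebentypus at `ℓ`**, twist `δ` (`= ⟨ℓ⟩`):
`(Nm_α (β y))(q^ℓ) = y(q^{ℓ²}) · ∏_{ξ ∈ μ_ℓ} (δ y)(ξ q)` -/
def TwistedPF (M ℓ : ℕ) [NeZero M] [NeZero ℓ] (δ : K1L L M ≃ₐ[L] K1L L M) : Prop :=
  ∀ y : K1L L M,
    qExpand L ℓ ((heckeNormOne M ℓ y : K1L L M) : LaurentSeries L) =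
      qExpand L (ℓ * ℓ) (y : LaurentSeries L) *
        rootProd ℓ ((δ y : K1L L M) : LaurentSeries L)

/-- from the `ζ`-form of helper1's `productFormula_one` -/
theorem twistedPF_of_range {ℓ : ℕ} [NeZero ℓ] (δ : K1L L M ≃ₐ[L] K1L L M) (ζ : Lˣ)
    (hζ : IsPrimitiveRoot ζ ℓ)
    (h : ∀ y : K1L L M,
      qExpand L ℓ ((normAlong (alphaOneBar L M ℓ) (betaOneBar L M ℓ y) : K1L L M) :
          LaurentSeries L) =
        qExpand L (ℓ * ℓ) (y : LaurentSeries L) *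
          ∏ b ∈ Finset.range ℓ, scale (ζ ^ b) ((δ y : K1L L M) : LaurentSeries L)) :
    TwistedPF M ℓ δ := fun y => by
  rw [← prod_range_scale_eq_rootProd ℓ hζ]
  exact h y

variable {ℓ ℓ' : ℕ} [NeZero ℓ] [NeZero ℓ']

/-- **the multiplicative Hecke operators of `X₁(M)` at coprime `ℓ`, `ℓ'` commute** -/
theorem heckeNormOne_comm (hcop : Nat.Coprime ℓ ℓ') (δ δ' : K1L L M ≃ₐ[L] K1L L M)
    (hPF : TwistedPF M ℓ δ) (hPF' : TwistedPF M ℓ' δ') (hδ : ExtendsToLevel δ ℓ')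
    (hδ' : ExtendsToLevel δ' ℓ) (hδδ' : ∀ y, δ (δ' y) = δ' (δ y)) (y : K1L L M) :
    heckeNormOne M ℓ (heckeNormOne M ℓ' y) = heckeNormOne M ℓ' (heckeNormOne M ℓ y) :=
  comm_of_twistedProductFormula hcop (fun z : K1L L M => (z : LaurentSeries L))
    Subtype.val_injective (heckeNormOne M ℓ) (heckeNormOne M ℓ') δ δ' hPF hPF'
    (fun y => (heckeNormOne_algAut δ hδ y).symm) (fun y => (heckeNormOne_algAut δ' hδ' y).symm)
    hδδ' y

/-- **`T_ℓ T_ℓ' = T_ℓ' T_ℓ` on `Pic⁰` of `X₁(M)`** from the two product formulas with nebentypus,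
the extension of the two diamonds to the other level, and `⟨ℓ⟩⟨ℓ'⟩ = ⟨ℓ'⟩⟨ℓ⟩` -/
theorem heckeOne_comm_of_productFormula (h : LevInputs L M ℓ) (h' : LevInputs L M ℓ')
    (hF : RiemannPkg L (K1L L M)) (hcop : Nat.Coprime ℓ ℓ') (δ δ' : K1L L M ≃ₐ[L] K1L L M)
    (hPF : TwistedPF M ℓ δ) (hPF' : TwistedPF M ℓ' δ') (hδ : ExtendsToLevel δ ℓ')
    (hδ' : ExtendsToLevel δ' ℓ) (hδδ' : ∀ y, δ (δ' y) = δ' (δ y))
    (x : Pic0 L (K1L L M)) : heckeOne h (heckeOne h' x) = heckeOne h' (heckeOne h x) :=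
  heckeOne_comm h h' hF
    (fun y _ => by rw [heckeNormOne_comm hcop δ δ' hPF hPF' hδ hδ' hδδ' y]) x

end Inst

end Fermat.Agent.DS.X1Hecke
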