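/-
PROGRAMME III (S48, Deligne–Serre), J1-PORT, leaf X1-HECKE-1b (helper24): FINITENESS AT LEVEL `(M; ℓ)`
FROM FINITENESS AT LEVEL `M`.

`L` algebraically closed of characteristic zero.  If `K1L L M` is finite over `L(j)` (AN-3), then
`K1LevL L M ℓ` is finite over `L(j)` (every `ℓ ≥ 1`), because it is generated by
`α(K1L)`, `β(K1L)` and the function field of `X₀(M ℓ)` (finite over `L(j)` by main), and
`β j = j(q^ℓ)` lies in the latter.  Consequences: `LevInputs L M ℓ`, the Riemann packages of both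
fields, hence the DEFINITION of `T_ℓ` on `J₁(M)` and its Galois equivariance hang on AN-3 alone.
-/
import Mathlib
import Fermat.Agent.DS.X1Hecke.Inst
import Fermat.Agent.DS.ES.GeneratorsGen
import Fermat.Agent.Jac.SepVarFc

set_option autoImplicit false
set_option linter.unusedSectionVars false
set_option linter.style.haveILetI false

noncomputable section

namespace Fermat.Agent.DS.X1Hecke

open AlgebraicCurve ModularCurve HahnSeries IntermediateField Fermat.Agent.Hecke Fermat.Agent.Jac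
  Fermat.Agent.Red Fermat.Agent.DS.X1

/-! ### generic field theory -/

section Field

variable {K A E : Type*} [Field K] [Field A] [Field E] [Algebra K A] [Algebra K E]

/-- an algebra homomorphism maps `K(x)` into `K(f x)` -/
theorem map_mem_adjoin_simple (f : A →ₐ[K] E) (x : A) {z : A} (hz : z ∈ K⟮x⟯) :
    f z ∈ K⟮f x⟯ := by
  have h : (K⟮x⟯).map f = K⟮f x⟯ := by
    rw [IntermediateField.adjoin_map, Set.image_singleton]
  rw [← h]
  exact ⟨z, hz, rfl⟩

/-- algebraicity over `K(x)` is transported by algebra homomorphisms -/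
theorem isAlgebraic_adjoin_simple_map (f : A →ₐ[K] E) {x y : A} (h : IsAlgebraic K⟮x⟯ y) :
    IsAlgebraic K⟮f x⟯ (f y) := by
  let φ : K⟮x⟯ →+* K⟮f x⟯ :=
    { toFun := fun z => ⟨f z, map_mem_adjoin_simple f x z.2⟩
      map_one' := Subtype.ext (map_one f)
      map_mul' := fun a b => Subtype.ext (map_mul f _ _)
      map_zero' := Subtype.ext (map_zero f)
      map_add' := fun a b => Subtype.ext (map_add f _ _) }
  exact h.ringHom_of_comp_eq φ (f : A →+* E) φ.injective (RingHom.ext fun z => rfl)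

/-- transitivity: `v` algebraic over `K(x)` and `u` algebraic over `K(v)` ⇒ `u` algebraic over
`K(x)` -/
theorem isAlgebraic_adjoin_simple_trans {x v u : E} (hv : IsAlgebraic K⟮x⟯ v)
    (hu : IsAlgebraic K⟮v⟯ u) : IsAlgebraic K⟮x⟯ u := by
  let 𝔸 : IntermediateField K⟮x⟯ E := algebraicClosure K⟮x⟯ E
  have hv' : v ∈ 𝔸.restrictScalars K := (mem_algebraicClosure_iff').mpr hv.isIntegral
  have hle : K⟮v⟯ ≤ 𝔸.restrictScalars K := by
    rw [adjoin_simple_le_iff]
    exact hv'
  let ψ : K⟮v⟯ →+* 𝔸 :=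
    { toFun := fun z => ⟨z, hle z.2⟩
      map_one' := rfl
      map_mul' := fun _ _ => rfl
      map_zero' := rfl
      map_add' := fun _ _ => rfl }
  have h1 : IsAlgebraic 𝔸 u := by
    have := hu.ringHom_of_comp_eq ψ (RingHom.id E) ψ.injective (RingHom.ext fun z => rfl)
    exact this
  exact h1.restrictScalars K⟮x⟯

/-- a finitely generated field extension whose generators are algebraic over `K(x)` is finite over
`K(x)` -/
theorem finiteDimensional_of_fg_of_isAlgebraic (x : E) {S : Set E} (hS : S.Finite)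
    (halg : ∀ s ∈ S, IsAlgebraic K⟮x⟯ s) (htop : adjoin K S = ⊤) :
    FiniteDimensional K⟮x⟯ E := by
  haveI : Finite S := hS
  have hfd : FiniteDimensional K⟮x⟯ (adjoin K⟮x⟯ S) :=
    IntermediateField.finiteDimensional_adjoin fun y hy => (halg y hy).isIntegral
  have hle : adjoin K S ≤ (adjoin K⟮x⟯ S).restrictScalars K := by
    rw [adjoin_le_iff]
    intro s hs
    exact subset_adjoin K⟮x⟯ S hs
  have h2 : adjoin K⟮x⟯ S = ⊤ := by
    rw [eq_top_iff]
    intro y _
    have : y ∈ adjoin K S := by rw [htop]; trivial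
    exact hle this
  rw [h2] at hfd
  exact (IntermediateField.topEquiv (F := K⟮x⟯) (E := E)).toLinearEquiv.finiteDimensional

/-- algebraicity of the image of a field finite over `K(x)` -/
theorem isAlgebraic_map_of_finite (f : A →ₐ[K] E) (x : A) [FiniteDimensional K⟮x⟯ A] (a : A) :
    IsAlgebraic K⟮f x⟯ (f a) :=
  isAlgebraic_adjoin_simple_map f (Algebra.IsAlgebraic.isAlgebraic a)

/-- in characteristic zero every transcendental `x` with `E` finite over `K(x)` is a separating
variable -/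
theorem isSepVarS_of_charZero [CharZero K] {x : E} (hx : Transcendental K x)
    [FiniteDimensional K⟮x⟯ E] :
    Fermat.Agent.FF.IsSepVarS K x (Module.finrank K⟮x⟯ E) := by
  haveI : CharZero K⟮x⟯ := charZero_of_injective_algebraMap (algebraMap K K⟮x⟯).injective
  exact ⟨⟨hx, inferInstance, rfl⟩, Algebra.IsAlgebraic.isSeparable_of_perfectField⟩

end Field

/-- lifting a finite generating set from the ambient field to an intermediate field -/
theorem adjoin_coe_preimage_eq_top {K Ω : Type*} [Field K] [Field Ω] [Algebra K Ω]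
    (E : IntermediateField K Ω) {S₀ : Set Ω} (hS₀ : S₀ ⊆ E) (hE : E ≤ adjoin K S₀) :
    adjoin K ((↑) ⁻¹' S₀ : Set E) = ⊤ := by
  rw [eq_top_iff]
  intro y _
  have h1 : (y : Ω) ∈ adjoin K S₀ := hE y.2
  have h2 : lift (adjoin K ((↑) ⁻¹' S₀ : Set E)) = adjoin K S₀ := by
    rw [lift_adjoin]
    congr 1
    ext z
    constructor
    · rintro ⟨w, hw, rfl⟩
      exact hw
    · intro hz
      exact ⟨⟨z, hS₀ hz⟩, hz, rfl⟩
  rw [← h2] at h1
  exact (mem_lift y).mp h1

/-! ### the generators of `K1 M` and of `K1Lev M ℓ` -/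

section Gens

variable (M ℓ : ℕ) [NeZero M] [NeZero ℓ]

/-- the generators of `K1 M` -/
def gensOne : Set (LaurentSeries ℚ) := divisorExpansions M ∪ weberSet M

theorem K1_eq_adjoin : K1 M = IntermediateField.adjoin ℚ (gensOne M) := rfl

theorem divisorExpansions_finite (N : ℕ) [NeZero N] : (divisorExpansions N).Finite := by
  classical
  refine Set.Finite.subset ((Nat.divisors N).finite_toSet.image
    (fun d => if h : d = 0 then (0 : LaurentSeries ℚ) else @qExpand ℚ _ d ⟨h⟩ jq)) ?_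
  rintro x ⟨d, hd0, hd, rfl⟩
  refine ⟨d, ?_, ?_⟩
  · exact Finset.mem_coe.mpr (Nat.mem_divisors.mpr ⟨hd, NeZero.ne N⟩)
  · simp only [dif_neg (NeZero.ne d)]

theorem weberSet_finite : (weberSet M).Finite := by
  refine Set.Finite.subset ((Finset.range M).finite_toSet.image (fun a => weberQ M a)) ?_
  rintro x ⟨a, _, haM, rfl⟩
  exact ⟨a, Finset.mem_coe.mpr (Finset.mem_range.mpr haM), rfl⟩

theorem gensOne_finite : (gensOne M).Finite :=
  (divisorExpansions_finite M).union (weberSet_finite M)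

theorem gensOne_subset_K1 : gensOne M ⊆ (K1 M : Set (LaurentSeries ℚ)) :=
  fun _ hx => IntermediateField.subset_adjoin ℚ _ hx

/-- a finite generating set of `K1Lev M ℓ` -/
def gensLev : Set (LaurentSeries ℚ) :=
  divisorExpansions (M * ℓ) ∪ gensOne M ∪ (qExpand ℚ ℓ '' gensOne M)

theorem gensLev_finite : (gensLev M ℓ).Finite :=
  ((divisorExpansions_finite (M * ℓ)).union (gensOne_finite M)).union
    ((gensOne_finite M).image _)

theorem gensLev_subset_K1Lev : gensLev M ℓ ⊆ (K1Lev M ℓ : Set (LaurentSeries ℚ)) := by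
  rintro x ((hx | hx) | ⟨g, hg, rfl⟩)
  · exact IntermediateField.subset_adjoin ℚ _ (Or.inl (Or.inl hx))
  · exact K1_le_K1Lev M ℓ (gensOne_subset_K1 M hx)
  · exact qExpand_mem_K1Lev M ℓ (gensOne_subset_K1 M hg)

theorem full_le_K1Lev : modularFunctionFieldFull (M * ℓ) ≤ K1Lev M ℓ :=
  IntermediateField.adjoin.mono ℚ _ _ fun _ hx => Or.inl (Or.inl hx)

variable (L : Type*) [Field L] [Algebra ℚ L]

/-- **`K1LevL L M ℓ` is generated over `L` by the finitely many series `coeffEmb L t`,
`t ∈ gensLev M ℓ`** -/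
theorem K1LevL_le_adjoin :
    K1LevL L M ℓ ≤ IntermediateField.adjoin L (coeffEmb L '' gensLev M ℓ) := by
  set T : IntermediateField L (LaurentSeries L) :=
    IntermediateField.adjoin L (coeffEmb L '' gensLev M ℓ) with hT
  have hconst : ∀ a : L, algebraMap L (LaurentSeries L) a ∈ T.toSubfield := fun a =>
    T.algebraMap_mem a
  have hg : ∀ g ∈ gensOne M, coeffEmb L g ∈ T.toSubfield := fun g hg =>
    IntermediateField.subset_adjoin L _ ⟨g, Or.inl (Or.inr hg), rfl⟩
  -- the comap of `T` under `q ↦ q ^ ℓ`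
  have hconst' : ∀ a : L,
      algebraMap L (LaurentSeries L) a ∈ T.toSubfield.comap (qExpand L ℓ) := fun a => by
    show qExpand L ℓ (algebraMap L (LaurentSeries L) a) ∈ T
    rw [algebraMap_laurentSeries_eq_single, qExpand_single, mul_zero,
      ← algebraMap_laurentSeries_eq_single]
    exact T.algebraMap_mem a
  have hg' : ∀ g ∈ gensOne M, coeffEmb L g ∈ T.toSubfield.comap (qExpand L ℓ) := fun g hg => by
    show qExpand L ℓ (coeffEmb L g) ∈ T
    rw [← coeffEmb_qExpand]
    exact IntermediateField.subset_adjoin L _ ⟨qExpand ℚ ℓ g, Or.inr ⟨g, hg, rfl⟩, rfl⟩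
  intro x hx
  refine Fermat.Agent.DS.ES.mem_of_mem_laurentBaseChange_adjoin
    (divisorExpansions (M * ℓ) ∪ (K1 M : Set (LaurentSeries ℚ)) ∪
      (qExpand ℚ ℓ '' (K1 M : Set (LaurentSeries ℚ)))) T.toSubfield hconst ?_ hx
  rintro s ((hs | hs) | ⟨t, ht, rfl⟩)
  · exact IntermediateField.subset_adjoin L _ ⟨s, Or.inl (Or.inl hs), rfl⟩
  · exact Fermat.Agent.DS.ES.coeffEmb_mem_of_mem_adjoin (gensOne M) T.toSubfield hconst hg hs
  · have := Fermat.Agent.DS.ES.coeffEmb_mem_of_mem_adjoin (gensOne M)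
      (T.toSubfield.comap (qExpand L ℓ)) hconst' hg' ht
    show coeffEmb L (qExpand ℚ ℓ t) ∈ T
    rw [coeffEmb_qExpand]
    exact this

end Gens

/-! ### finiteness at level `(M; ℓ)` -/

section Fin

variable (L : Type*) [Field L] [Algebra ℚ L] (M ℓ : ℕ) [NeZero M] [NeZero ℓ]

/-- the inclusion of the function field of `X₀(M ℓ)` -/
def gammaLev : laurentBaseChange L (modularFunctionFieldFull (M * ℓ)) →ₐ[L] K1LevL L M ℓ :=
  alphaGen L (full_le_K1Lev M ℓ)

@[simp]
theorem coe_gammaLev (x : laurentBaseChange L (modularFunctionFieldFull (M * ℓ))) :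
    (gammaLev L M ℓ x : LaurentSeries L) = (x : LaurentSeries L) :=
  coe_alphaGen L _ x

/-- the series `j(q)` at level `(M; ℓ)` -/
def jLev : K1LevL L M ℓ := alphaOneBar L M ℓ (jOne L M)

@[simp]
theorem coe_jLev : ((jLev L M ℓ : K1LevL L M ℓ) : LaurentSeries L) = coeffEmb L jq := by
  rw [jLev, coe_alphaOneBar, coe_jOne]

theorem jLev_transcendental : Transcendental L (jLev L M ℓ) := by
  intro h
  exact jOne_transcendental L M
    ((isAlgebraic_algHom_iff (alphaOneBar L M ℓ) (alphaOneBar L M ℓ).injective).mp h)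

theorem gammaLev_jBC :
    gammaLev L M ℓ (Fermat.Agent.Jac.Descent.jBC L (M * ℓ)) = jLev L M ℓ :=
  Subtype.ext (by rw [coe_gammaLev, coe_jLev]; rfl)

variable [IsAlgClosed L]

/-- the function field of `X₀(M ℓ)` is algebraic over `L(j)` inside `K1LevL L M ℓ` -/
theorem isAlgebraic_gammaLev (b : laurentBaseChange L (modularFunctionFieldFull (M * ℓ))) :
    IsAlgebraic L⟮jLev L M ℓ⟯ (gammaLev L M ℓ b) := by
  haveI : FiniteDimensional L⟮Fermat.Agent.Jac.Descent.jBC L (M * ℓ)⟯
      (laurentBaseChange L (modularFunctionFieldFull (M * ℓ))) :=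
    (Fermat.Agent.Jac.Descent.isSepVarS_jBC L (M * ℓ)).finite
  have h := isAlgebraic_map_of_finite (gammaLev L M ℓ)
    (Fermat.Agent.Jac.Descent.jBC L (M * ℓ)) b
  rwa [gammaLev_jBC] at h

variable [FiniteDimensional L⟮jOne L M⟯ (K1L L M)]

theorem isAlgebraic_alphaOneBar (a : K1L L M) :
    IsAlgebraic L⟮jLev L M ℓ⟯ (alphaOneBar L M ℓ a) :=
  isAlgebraic_map_of_finite (alphaOneBar L M ℓ) (jOne L M) a

theorem isAlgebraic_betaOneBar (a : K1L L M) :
    IsAlgebraic L⟮jLev L M ℓ⟯ (betaOneBar L M ℓ a) := by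
  have h1 : IsAlgebraic L⟮betaOneBar L M ℓ (jOne L M)⟯ (betaOneBar L M ℓ a) :=
    isAlgebraic_map_of_finite (betaOneBar L M ℓ) (jOne L M) a
  have hmem : coeffEmb L (qExpand ℚ ℓ jq) ∈
      laurentBaseChange L (modularFunctionFieldFull (M * ℓ)) :=
    coeffEmb_mem_laurentBaseChange L (jqd_mem_full (M * ℓ) (dvd_mul_left ℓ M))
  have h2 : betaOneBar L M ℓ (jOne L M) = gammaLev L M ℓ ⟨_, hmem⟩ :=
    Subtype.ext (by
      rw [coe_betaOneBar, coe_jOne, coe_gammaLev]
      exact (coeffEmb_qExpand L ℓ jq).symm)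
  have h3 : IsAlgebraic L⟮jLev L M ℓ⟯ (betaOneBar L M ℓ (jOne L M)) := by
    rw [h2]
    exact isAlgebraic_gammaLev L M ℓ _
  exact isAlgebraic_adjoin_simple_trans h3 h1

/-- **finiteness at level `(M; ℓ)` from finiteness at level `M`** -/
theorem isAlgebraic_of_coe_mem_gensLev (y : K1LevL L M ℓ)
    (hy : (y : LaurentSeries L) ∈ coeffEmb L '' gensLev M ℓ) :
    IsAlgebraic L⟮jLev L M ℓ⟯ y := by
  obtain ⟨t, ht, hty⟩ := hy
  rcases ht with (ht | ht) | ⟨g, hg, rfl⟩
  · have hmem : coeffEmb L t ∈ laurentBaseChange L (modularFunctionFieldFull (M * ℓ)) :=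
      coeffEmb_mem_laurentBaseChange L (IntermediateField.subset_adjoin ℚ _ ht)
    have e : y = gammaLev L M ℓ ⟨_, hmem⟩ := Subtype.ext (by rw [coe_gammaLev, ← hty])
    rw [e]
    exact isAlgebraic_gammaLev L M ℓ _
  · have hmem : coeffEmb L t ∈ K1L L M :=
      coeffEmb_mem_laurentBaseChange L (gensOne_subset_K1 M ht)
    have e : y = alphaOneBar L M ℓ ⟨_, hmem⟩ := Subtype.ext (by rw [coe_alphaOneBar, ← hty])
    rw [e]
    exact isAlgebraic_alphaOneBar L M ℓ _
  · have hmem : coeffEmb L g ∈ K1L L M :=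
      coeffEmb_mem_laurentBaseChange L (gensOne_subset_K1 M hg)
    have e : y = betaOneBar L M ℓ ⟨_, hmem⟩ :=
      Subtype.ext (by
        rw [coe_betaOneBar, ← hty]
        exact coeffEmb_qExpand L ℓ g)
    rw [e]
    exact isAlgebraic_betaOneBar L M ℓ _

/-- **finiteness at level `(M; ℓ)` from finiteness at level `M`** -/
theorem finiteDimensional_K1LevL : FiniteDimensional L⟮jLev L M ℓ⟯ (K1LevL L M ℓ) := by
  have hS₀ : coeffEmb L '' gensLev M ℓ ⊆ (K1LevL L M ℓ : Set (LaurentSeries L)) := by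
    rintro _ ⟨t, ht, rfl⟩
    exact coeffEmb_mem_laurentBaseChange L (gensLev_subset_K1Lev M ℓ ht)
  have hfin : ((↑) ⁻¹' (coeffEmb L '' gensLev M ℓ) : Set (K1LevL L M ℓ)).Finite :=
    ((gensLev_finite M ℓ).image _).preimage Subtype.val_injective.injOn
  have htop := adjoin_coe_preimage_eq_top (K1LevL L M ℓ) hS₀ (K1LevL_le_adjoin M ℓ L)
  exact finiteDimensional_of_fg_of_isAlgebraic (jLev L M ℓ) hfin
    (fun y hy => isAlgebraic_of_coe_mem_gensLev L M ℓ y hy) htop

/-- `j` is a separating variable at level `(M; ℓ)` -/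
theorem isSepVarS_jLev :
    Fermat.Agent.FF.IsSepVarS L (jLev L M ℓ) (Module.finrank L⟮jLev L M ℓ⟯ (K1LevL L M ℓ)) := by
  haveI := finiteDimensional_K1LevL L M ℓ
  haveI : CharZero L := algebraRat.charZero L
  exact isSepVarS_of_charZero (jLev_transcendental L M ℓ)

/-- **all side conditions of `T_ℓ` on `X₁(M)` from finiteness at level `M`** -/
theorem levInputs_of_finite_K1 : LevInputs L M ℓ := by
  haveI := finiteDimensional_K1LevL L M ℓ
  haveI : CharZero L := algebraRat.charZero L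
  exact levInputs_of_finite (jLev L M ℓ) (jLev_transcendental L M ℓ)

/-- the Riemann package of `K1L L M` from finiteness over `L(j)` -/
theorem riemannPkg_K1L : RiemannPkg L (K1L L M) := by
  haveI : CharZero L := algebraRat.charZero L
  exact riemannPkg_lBC (jOne L M) (jOne_transcendental L M)

/-- the Riemann package at level `(M; ℓ)` -/
theorem riemannPkg_K1LevL : RiemannPkg L (K1LevL L M ℓ) := by
  haveI := finiteDimensional_K1LevL L M ℓ
  haveI : CharZero L := algebraRat.charZero L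
  exact riemannPkg_lBC (jLev L M ℓ) (jLev_transcendental L M ℓ)

/-- **`T_ℓ` on `Pic⁰` of `X₁(M)`, from finiteness at level `M` alone** -/
def heckeOneOf : Pic0 L (K1L L M) →+ Pic0 L (K1L L M) :=
  haveI : CharZero L := algebraRat.charZero L
  heckeOne (levInputs_of_finite_K1 L M ℓ)

/-- **Galois equivariance of `T_ℓ`, from finiteness at level `M` alone** -/
theorem heckeOneOf_galois_smul (σ : L ≃ₐ[ℚ] L) (x : Pic0 L (K1L L M)) :
    heckeOneOf L M ℓ (σ • x) = σ • heckeOneOf L M ℓ x := by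
  haveI : CharZero L := algebraRat.charZero L
  exact heckeOne_galois_smul (levInputs_of_finite_K1 L M ℓ) (riemannPkg_K1L L M) σ x

end Fin

/-! ### entry points from AN-3's `IsSepVarS` -/

section Entry

variable {L : Type*} [Field L] [Algebra ℚ L] [IsAlgClosed L] {M : ℕ} [NeZero M]

/-- from AN-3: `j` is a separating variable of `K1L L M` ⇒ all side conditions of every `T_ℓ` -/
theorem levInputs_of_isSepVarS {n : ℕ} (h : Fermat.Agent.FF.IsSepVarS L (jOne L M) n) (ℓ : ℕ)
    [NeZero ℓ] : LevInputs L M ℓ :=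
  haveI := h.finite
  levInputs_of_finite_K1 L M ℓ

/-- from AN-3: `j` is a separating variable at every level `(M; ℓ)` -/
theorem isSepVarS_jLev_of_isSepVarS {n : ℕ} (h : Fermat.Agent.FF.IsSepVarS L (jOne L M) n)
    (ℓ : ℕ) [NeZero ℓ] :
    Fermat.Agent.FF.IsSepVarS L (jLev L M ℓ) (Module.finrank L⟮jLev L M ℓ⟯ (K1LevL L M ℓ)) :=
  haveI := h.finite
  isSepVarS_jLev L M ℓ

end Entry

end Fermat.Agent.DS.X1Hecke
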