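/-
PROGRAMME III (S48, Deligne–Serre), J1-PORT, leaf X1-HECKE-3 (helper24):
THE COMMUTING, GALOIS-EQUIVARIANT FAMILY `{T_p (p ∤ M), ⟨d⟩}` ON `J₁(M)(ℚ̄)`
(= the clauses `KComm`, `KGal` of helper4's X1-OUT skeleton) FROM THE NAMED INPUTS

* AN-3  : `j` is a separating variable of `K1Bar M`;
* AN-4  : the diamonds `dia : (ℤ/M)ˣ →* Aut(K1Bar M / ℚ̄)`, rational, extending to every level `(M; p)`;
* X1-ES : helper1's product formula with nebentypus at every prime `p ∤ M`.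
-/
import Mathlib
import Fermat.Agent.DS.X1Hecke.Fin
import Fermat.Agent.DS.X1Hecke.Comm

set_option autoImplicit false
set_option linter.unusedSectionVars false
set_option linter.style.haveILetI false

noncomputable section

namespace Fermat.Agent.DS.X1Hecke

open AlgebraicCurve ModularCurve HahnSeries IntermediateField Fermat.Agent.Hecke Fermat.Agent.Jac
  Fermat.Agent.Red Fermat.Agent.DS.X1 Fermat.Agent.X0

/-- the index set of the Hecke algebra of `X₁(M)` away from `M` (helper4's `HeckeIdx`) -/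
abbrev HeckeIdxOne (M : ℕ) : Type := {p : Nat.Primes // ¬ (p : ℕ) ∣ M} ⊕ (ZMod M)ˣ

/-- the unit `p mod M` of a prime `p ∤ M` -/
def unitOfPrime {M : ℕ} (p : Nat.Primes) (hpM : ¬ (p : ℕ) ∣ M) : (ZMod M)ˣ :=
  ZMod.unitOfCoprime (p : ℕ) ((Nat.Prime.coprime_iff_not_dvd p.2).mpr hpM)

/-- **the named inputs of the Hecke algebra of `X₁(M)`** -/
structure HeckeInputsOne (M : ℕ) [NeZero M] where
  /-- AN-3 : the degree of `j` -/
  n : ℕ
  /-- AN-3 : `j` is a separating variable of `K1Bar M` -/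
  sep : Fermat.Agent.FF.IsSepVarS Kb (jOne Kb M) n
  /-- AN-4 : the diamond operators on the function field -/
  dia : (ZMod M)ˣ →* (K1L Kb M ≃ₐ[Kb] K1L Kb M)
  /-- AN-4 : every diamond extends to every level `(M; p)`, compatibly with `α` and `β` -/
  dia_ext : ∀ (d : (ZMod M)ˣ) (p : Nat.Primes), ¬ (p : ℕ) ∣ M →
    haveI : NeZero (p : ℕ) := ⟨p.2.ne_zero⟩
    ExtendsToLevel (dia d) (p : ℕ)
  /-- AN-4 : the diamonds have rational coefficients -/
  dia_rat : ∀ (d : (ZMod M)ˣ) (σ : Kb ≃ₐ[ℚ] Kb) (y : K1L Kb M),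
    dia d (arithmeticGalois (K1 M) σ • y) = arithmeticGalois (K1 M) σ • dia d y
  /-- X1-ES : the product formula with nebentypus at every prime `p ∤ M` -/
  pf : ∀ (p : Nat.Primes) (hpM : ¬ (p : ℕ) ∣ M),
    haveI : NeZero (p : ℕ) := ⟨p.2.ne_zero⟩
    TwistedPF M (p : ℕ) (dia (unitOfPrime p hpM))

namespace HeckeInputsOne

variable {M : ℕ} [NeZero M]

theorem levInputs (I : HeckeInputsOne M) (p : Nat.Primes) :
    haveI : NeZero (p : ℕ) := ⟨p.2.ne_zero⟩
    LevInputs Kb M (p : ℕ) :=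
  haveI : NeZero (p : ℕ) := ⟨p.2.ne_zero⟩
  levInputs_of_isSepVarS I.sep (p : ℕ)

theorem riemannPkg (I : HeckeInputsOne M) : RiemannPkg Kb (K1L Kb M) :=
  haveI := I.sep.finite
  riemannPkg_K1L Kb M

/-- `T_p` on `J₁(M)(ℚ̄)` -/
def T (I : HeckeInputsOne M) (p : Nat.Primes) : Module.End ℤ (JOne M) :=
  haveI : NeZero (p : ℕ) := ⟨p.2.ne_zero⟩
  (heckeOne (I.levInputs p)).toIntLinearMap

/-- `⟨d⟩` on `J₁(M)(ℚ̄)` -/
def D (I : HeckeInputsOne M) (d : (ZMod M)ˣ) : Module.End ℤ (JOne M) :=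
  (DistribSMul.toAddMonoidHom (JOne M) (SemilinearAut.ofAlgAut (I.dia d))).toIntLinearMap

theorem T_apply (I : HeckeInputsOne M) (p : Nat.Primes) (x : JOne M) :
    I.T p x = (haveI : NeZero (p : ℕ) := ⟨p.2.ne_zero⟩; heckeOne (I.levInputs p) x) := rfl

theorem D_apply (I : HeckeInputsOne M) (d : (ZMod M)ˣ) (x : JOne M) :
    I.D d x = SemilinearAut.ofAlgAut (I.dia d) • x := rfl

/-- the family `S` of helper4's skeleton -/
def S (I : HeckeInputsOne M) : HeckeIdxOne M → Module.End ℤ (JOne M)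
  | Sum.inl p => I.T p.1
  | Sum.inr d => I.D d

theorem D_comm_D (I : HeckeInputsOne M) (d d' : (ZMod M)ˣ) : Commute (I.D d) (I.D d') := by
  refine LinearMap.ext fun x => ?_
  rw [Module.End.mul_apply, Module.End.mul_apply, D_apply, D_apply, D_apply, D_apply,
    ← mul_smul, ← mul_smul, ← map_mul, ← map_mul, ← map_mul, ← map_mul, mul_comm]

theorem T_comm_D (I : HeckeInputsOne M) (p : Nat.Primes) (hpM : ¬ (p : ℕ) ∣ M) (d : (ZMod M)ˣ) :
    Commute (I.T p) (I.D d) := by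
  haveI : NeZero (p : ℕ) := ⟨p.2.ne_zero⟩
  refine LinearMap.ext fun x => ?_
  rw [Module.End.mul_apply, Module.End.mul_apply, D_apply, D_apply, T_apply, T_apply]
  exact heckeOne_algAut_smul_of_extends (I.levInputs p) I.riemannPkg (I.dia d)
    (I.dia_ext d p hpM) x

theorem T_comm_T (I : HeckeInputsOne M) (p p' : Nat.Primes) (hpM : ¬ (p : ℕ) ∣ M) (hp'M : ¬ (p' : ℕ) ∣ M) :
    Commute (I.T p) (I.T p') := by
  rcases eq_or_ne p p' with rfl | hne
  · exact Commute.refl _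
  haveI : NeZero (p : ℕ) := ⟨p.2.ne_zero⟩
  haveI : NeZero (p' : ℕ) := ⟨p'.2.ne_zero⟩
  have hcop : Nat.Coprime (p : ℕ) (p' : ℕ) :=
    (Nat.coprime_primes p.2 p'.2).mpr fun h => hne (Subtype.ext h)
  refine LinearMap.ext fun x => ?_
  rw [Module.End.mul_apply, Module.End.mul_apply, T_apply, T_apply, T_apply, T_apply]
  exact heckeOne_comm_of_productFormula (I.levInputs p) (I.levInputs p') I.riemannPkg hcop
    (I.dia (unitOfPrime p hpM)) (I.dia (unitOfPrime p' hp'M)) (I.pf p hpM) (I.pf p' hp'M)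
    (I.dia_ext _ p' hp'M) (I.dia_ext _ p hpM)
    (fun y => by
      rw [← AlgEquiv.mul_apply, ← AlgEquiv.mul_apply, ← map_mul, ← map_mul, mul_comm]) x

/-- **`KComm`** : the family commutes -/
theorem S_commute (I : HeckeInputsOne M) (i j : HeckeIdxOne M) : Commute (I.S i) (I.S j) := by
  rcases i with ⟨p, hp⟩ | d <;> rcases j with ⟨p', hp'⟩ | d'
  · exact I.T_comm_T p p' hp hp'
  · exact I.T_comm_D p hp d'
  · exact (I.T_comm_D p' hp' d).symm
  · exact I.D_comm_D d d'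

theorem ofAlgAut_mul_arithmeticGalois (I : HeckeInputsOne M) (d : (ZMod M)ˣ) (σ : Kb ≃ₐ[ℚ] Kb) :
    SemilinearAut.ofAlgAut (I.dia d) * arithmeticGalois (K1 M) σ =
      arithmeticGalois (K1 M) σ * SemilinearAut.ofAlgAut (I.dia d) := by
  refine Subtype.ext (Prod.ext (RingEquiv.ext fun y => ?_) ?_)
  · exact I.dia_rat d σ y
  · show (1 : RingAut Kb) * σ.toRingEquiv = σ.toRingEquiv * 1
    rw [one_mul, mul_one]

/-- **`KGal`** : the family is Galois-equivariant -/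
theorem S_galois (I : HeckeInputsOne M) (σ : Kb ≃ₐ[ℚ] Kb) (i : HeckeIdxOne M) (x : JOne M) :
    I.S i (σ • x) = σ • I.S i x := by
  rcases i with ⟨p, hp⟩ | d
  · haveI : NeZero (p : ℕ) := ⟨p.2.ne_zero⟩
    exact heckeOne_galois_smul (I.levInputs p) I.riemannPkg σ x
  · show SemilinearAut.ofAlgAut (I.dia d) • (σ • x) = σ • (SemilinearAut.ofAlgAut (I.dia d) • x)
    rw [galois_smul_pic0_def, galois_smul_pic0_def, ← mul_smul, ← mul_smul,
      I.ofAlgAut_mul_arithmeticGalois d σ]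

end HeckeInputsOne

end Fermat.Agent.DS.X1Hecke
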