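/-
PROGRAMME III (S48, Deligne–Serre), J1-PORT, leaf X1-HECKE-3b (helper24): THE NORMALISED FAMILIES.

For `I : HeckeInputsOne M`, `ε : ℤ`, `a : ℕ`:
  `S^{ε,a}(inr d) := ⟨d^ε⟩`,   `S^{ε,a}(inl p) := T_p ∘ ⟨p^ε⟩^a`
(`ε = 1, a = 0` is `I.S`; helper4's predicted pattern for `KKum`/`KES` is `ε = -1`, `a = 1`).
All these families commute and are Galois-equivariant: `Stw_commute` (`KComm`), `Stw_galois` (`KGal`).
-/
import Mathlib
import Fermat.Agent.DS.X1Hecke.Data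

set_option autoImplicit false
set_option linter.unusedSectionVars false
set_option linter.style.haveILetI false

noncomputable section

namespace Fermat.Agent.DS.X1Hecke

open AlgebraicCurve ModularCurve HahnSeries IntermediateField Fermat.Agent.Hecke Fermat.Agent.Jac
  Fermat.Agent.Red Fermat.Agent.DS.X1 Fermat.Agent.X0

namespace HeckeInputsOne

variable {M : ℕ} [NeZero M]

/-- the twisted diamond `⟨d^ε⟩` -/
def Dtw (I : HeckeInputsOne M) (ε : ℤ) (d : (ZMod M)ˣ) : Module.End ℤ (JOne M) := I.D (d ^ ε)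

/-- the twisted Hecke operator `T_p ∘ ⟨p^ε⟩^a` -/
def Ttw (I : HeckeInputsOne M) (ε : ℤ) (a : ℕ) (p : Nat.Primes) (hpM : ¬ (p : ℕ) ∣ M) :
    Module.End ℤ (JOne M) :=
  I.T p * I.Dtw ε (unitOfPrime p hpM) ^ a

/-- the normalised family `S^{ε,a}` -/
def Stw (I : HeckeInputsOne M) (ε : ℤ) (a : ℕ) : HeckeIdxOne M → Module.End ℤ (JOne M)
  | Sum.inl p => I.Ttw ε a p.1 p.2
  | Sum.inr d => I.Dtw ε d

theorem Stw_inr (I : HeckeInputsOne M) (ε : ℤ) (a : ℕ) (d : (ZMod M)ˣ) (x : JOne M) :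
    I.Stw ε a (Sum.inr d) x = SemilinearAut.ofAlgAut (I.dia (d ^ ε)) • x := rfl

theorem Stw_inl (I : HeckeInputsOne M) (ε : ℤ) (a : ℕ) (p : Nat.Primes) (hpM : ¬ (p : ℕ) ∣ M)
    (x : JOne M) :
    I.Stw ε a (Sum.inl ⟨p, hpM⟩) x =
      I.T p ((I.D (unitOfPrime p hpM ^ ε) ^ a) x) := rfl

theorem Stw_one_zero (I : HeckeInputsOne M) : I.Stw 1 0 = I.S := by
  funext i
  rcases i with ⟨p, hp⟩ | d
  · show I.T p * I.Dtw 1 (unitOfPrime p hp) ^ 0 = I.T p
    rw [pow_zero, mul_one]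
  · show I.D (d ^ (1 : ℤ)) = I.D d
    rw [zpow_one]

/-- **`KComm`** for the normalised family -/
theorem Stw_commute (I : HeckeInputsOne M) (ε : ℤ) (a : ℕ) (i j : HeckeIdxOne M) :
    Commute (I.Stw ε a i) (I.Stw ε a j) := by
  rcases i with ⟨p, hp⟩ | d <;> rcases j with ⟨p', hp'⟩ | d'
  · exact Commute.mul_left
      (Commute.mul_right (I.T_comm_T p p' hp hp') ((I.T_comm_D p hp _).pow_right a))
      (Commute.mul_right ((I.T_comm_D p' hp' _).symm.pow_left a)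
        ((I.D_comm_D _ _).pow_pow a a))
  · exact Commute.mul_left (I.T_comm_D p hp _) ((I.D_comm_D _ _).pow_left a)
  · exact Commute.mul_right (I.T_comm_D p' hp' _).symm ((I.D_comm_D _ _).pow_right a)
  · exact I.D_comm_D _ _

theorem D_galois (I : HeckeInputsOne M) (σ : Kb ≃ₐ[ℚ] Kb) (d : (ZMod M)ˣ) (x : JOne M) :
    I.D d (σ • x) = σ • I.D d x := I.S_galois σ (Sum.inr d) x

theorem T_galois (I : HeckeInputsOne M) (σ : Kb ≃ₐ[ℚ] Kb) (p : Nat.Primes)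
    (hpM : ¬ (p : ℕ) ∣ M) (x : JOne M) : I.T p (σ • x) = σ • I.T p x :=
  I.S_galois σ (Sum.inl ⟨p, hpM⟩) x

theorem D_pow_galois (I : HeckeInputsOne M) (σ : Kb ≃ₐ[ℚ] Kb) (d : (ZMod M)ˣ) (a : ℕ)
    (x : JOne M) : (I.D d ^ a) (σ • x) = σ • (I.D d ^ a) x := by
  induction a generalizing x with
  | zero => simp
  | succ n ih =>
    rw [pow_succ, Module.End.mul_apply, Module.End.mul_apply, I.D_galois, ih]

/-- **`KGal`** for the normalised family -/
theorem Stw_galois (I : HeckeInputsOne M) (ε : ℤ) (a : ℕ) (σ : Kb ≃ₐ[ℚ] Kb)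
    (i : HeckeIdxOne M) (x : JOne M) : I.Stw ε a i (σ • x) = σ • I.Stw ε a i x := by
  rcases i with ⟨p, hp⟩ | d
  · rw [Stw_inl, Stw_inl, I.D_pow_galois, I.T_galois σ p hp]
  · exact I.D_galois σ _ x

end HeckeInputsOne

end Fermat.Agent.DS.X1Hecke
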