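/-
PROGRAMME III (S48, Deligne–Serre), J1-PORT, leaf X1-HECKE-4a (helper24):
THE CANONICAL DIAMOND OPERATORS ON `K1 M ⊗ ℚ̄` (ruling D1/D2):
`diaBar D d := lbcEquiv ℚ̄ (diamondQ D d)`, as a monoid homomorphism, and their rationality
(they commute with the arithmetic Galois action on the coefficients).
-/
import Mathlib
import Fermat.Agent.DS.X1Hecke.Data
import Fermat.Agent.DS.X1.Diamond
import Fermat.Agent.DS.J1Spec.LbcFunctor

set_option autoImplicit false
set_option linter.unusedSectionVars false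
set_option linter.style.haveILetI false

noncomputable section

namespace Fermat.Agent.DS.X1Hecke

open AlgebraicCurve ModularCurve HahnSeries IntermediateField Fermat.Agent.Hecke Fermat.Agent.Jac
  Fermat.Agent.Red Fermat.Agent.DS.X1 Fermat.Agent.X0 Fermat.Agent.DS.J1Spec

section Generic

variable {L : Type*} [Field L] [Algebra ℚ L]
variable {F₀ : IntermediateField ℚ (LaurentSeries ℚ)}

/-- the arithmetic automorphisms fix the rational elements -/
theorem arithmeticRingAut_emb (σ : L ≃ₐ[ℚ] L) (f : F₀) :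
    arithmeticRingAut F₀ σ (emb L F₀ f) = emb L F₀ f :=
  Subtype.ext (coeffMap_coeffEmb σ (f : LaurentSeries ℚ))

/-- the `L`-algebra map `σ⁻¹ ∘ φ ∘ σ` attached to an `L`-algebra automorphism `φ` of `F₀ ⊗ L` -/
def arithConj (σ : L ≃ₐ[ℚ] L) (φ : laurentBaseChange L F₀ ≃ₐ[L] laurentBaseChange L F₀) :
    laurentBaseChange L F₀ →ₐ[L] laurentBaseChange L F₀ :=
  { ((arithmeticRingAut F₀ σ).symm : laurentBaseChange L F₀ →+* laurentBaseChange L F₀).comp
      ((φ : laurentBaseChange L F₀ →+* laurentBaseChange L F₀).comp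
        (arithmeticRingAut F₀ σ : laurentBaseChange L F₀ →+* laurentBaseChange L F₀)) with
    commutes' := fun a => by
      show (arithmeticRingAut F₀ σ).symm (φ (arithmeticRingAut F₀ σ (algebraMap L _ a))) = _
      rw [arithmeticRingAut_algebraMap, AlgEquiv.commutes, RingEquiv.symm_apply_eq,
        arithmeticRingAut_algebraMap] }

theorem arithConj_apply (σ : L ≃ₐ[ℚ] L)
    (φ : laurentBaseChange L F₀ ≃ₐ[L] laurentBaseChange L F₀) (y : laurentBaseChange L F₀) :
    arithConj σ φ y = (arithmeticRingAut F₀ σ).symm (φ (arithmeticRingAut F₀ σ y)) := rfl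

/-- **Rationality of base-changed automorphisms**: `lbcEquiv L σ₀` commutes with the arithmetic
Galois action on the coefficients. -/
theorem lbcEquiv_arithmeticRingAut (σ₀ : F₀ ≃ₐ[ℚ] F₀) (σ : L ≃ₐ[ℚ] L)
    (y : laurentBaseChange L F₀) :
    lbcEquiv L σ₀ (arithmeticRingAut F₀ σ y) = arithmeticRingAut F₀ σ (lbcEquiv L σ₀ y) := by
  have h : arithConj σ (lbcEquiv L σ₀) =
      ((lbcEquiv L σ₀ : laurentBaseChange L F₀ ≃ₐ[L] laurentBaseChange L F₀) :
        laurentBaseChange L F₀ →ₐ[L] laurentBaseChange L F₀) :=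
    algHom_ext_emb L fun f => by
      rw [arithConj_apply, arithmeticRingAut_emb, AlgEquiv.coe_toAlgHom, lbcEquiv_emb,
        RingEquiv.symm_apply_eq, arithmeticRingAut_emb]
  have h' := DFunLike.congr_fun h y
  rw [arithConj_apply, RingEquiv.symm_apply_eq] at h'
  exact h'

theorem lbcEquiv_arithmeticGalois_smul (σ₀ : F₀ ≃ₐ[ℚ] F₀) (σ : L ≃ₐ[ℚ] L)
    (y : laurentBaseChange L F₀) :
    lbcEquiv L σ₀ (arithmeticGalois F₀ σ • y) = arithmeticGalois F₀ σ • lbcEquiv L σ₀ y :=
  lbcEquiv_arithmeticRingAut σ₀ σ y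

/-- the base change of a group of `ℚ`-automorphisms, as a monoid homomorphism -/
def lbcEquivHom (L : Type*) [Field L] [Algebra ℚ L]
    (F₀ : IntermediateField ℚ (LaurentSeries ℚ)) :
    (F₀ ≃ₐ[ℚ] F₀) →* (laurentBaseChange L F₀ ≃ₐ[L] laurentBaseChange L F₀) where
  toFun σ₀ := lbcEquiv L σ₀
  map_one' := lbcEquiv_refl L
  map_mul' σ₀ τ₀ := lbcEquiv_mul L σ₀ τ₀

@[simp] theorem lbcEquivHom_apply (σ₀ : F₀ ≃ₐ[ℚ] F₀) : lbcEquivHom L F₀ σ₀ = lbcEquiv L σ₀ := rfl

end Generic

section Dia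

variable {M : ℕ} [NeZero M]

/-- **the canonical diamond operators on `K1 M ⊗ ℚ̄`** (ruling D1/D2) -/
def diaBar (D : WeberAnData M) : (ZMod M)ˣ →* (K1L Kb M ≃ₐ[Kb] K1L Kb M) :=
  (lbcEquivHom Kb (K1 M)).comp (diamondQHom D)

theorem diaBar_apply (D : WeberAnData M) (d : (ZMod M)ˣ) :
    diaBar D d = lbcEquiv Kb (diamondQ D d) := rfl

/-- the canonical diamonds have rational coefficients (`dia_rat`) -/
theorem diaBar_rat (D : WeberAnData M) (d : (ZMod M)ˣ) (σ : Kb ≃ₐ[ℚ] Kb) (y : K1L Kb M) :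
    diaBar D d (arithmeticGalois (K1 M) σ • y) = arithmeticGalois (K1 M) σ • diaBar D d y :=
  lbcEquiv_arithmeticGalois_smul (diamondQ D d) σ y

/-- value on rational elements -/
theorem diaBar_emb (D : WeberAnData M) (d : (ZMod M)ˣ) (f : K1 M) :
    diaBar D d (emb Kb (K1 M) f) = emb Kb (K1 M) (diamondQ D d f) :=
  lbcEquiv_emb Kb (diamondQ D d) f

/-- the canonical diamonds fix `j` -/
theorem diaBar_jOne (D : WeberAnData M) (d : (ZMod M)ˣ) : diaBar D d (jOne Kb M) = jOne Kb M := by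
  have h : jOne Kb M = emb Kb (K1 M) ⟨jq, jq_mem_K1 M⟩ := rfl
  have hj : jq ∈ modularFunctionFieldFull M := by
    have h := jqd_mem_full M (one_dvd M)
    rw [qExpand_one_apply] at h
    exact h
  rw [h, diaBar_emb, diamondQ_fixes_F0 D d _ hj]

end Dia

end Fermat.Agent.DS.X1Hecke
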