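/-
PROGRAMME III (S48, Deligne–Serre), J1-PORT, leaf X1-HECKE-4 (helper24):
THE ADAPTER `heckeInputsOne_of` : the named inputs `HeckeInputsOne M` of the Hecke algebra of
`X₁(M)` from
* AN-1b/AN-3 : `Div.weberCuspData M` (helper16) + `isSepVarS_K1Bar` (helper23/helper6/helper5);
* AN-4       : the canonical diamonds `diaBar` (helper2's `diamondQ`, base-changed by helper5's
               `lbcEquiv`), rational by `diaBar_rat`;
* the two remaining named inputs: the twisted product formula `hpf` (X1-ES, helper1/helper8) and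
  the extension of the diamonds to the levels `(M; p)` `hext` (AN-4 at level `(M; p)`, helper2).
-/
import Mathlib
import Fermat.Agent.DS.X1Hecke.DiaBar
import Fermat.Agent.DS.X1Hecke.DataTw
import Fermat.Agent.DS.J1Spec.X1SpecFinal

set_option autoImplicit false
set_option linter.unusedSectionVars false
set_option linter.style.haveILetI false

noncomputable section

namespace Fermat.Agent.DS.X1Hecke

open AlgebraicCurve ModularCurve HahnSeries IntermediateField Fermat.Agent.Hecke Fermat.Agent.Jac
  Fermat.Agent.Red Fermat.Agent.DS.X1 Fermat.Agent.X0 Fermat.Agent.DS.J1Spec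

variable (M : ℕ) [NeZero M]

/-- the analytic data of level `M` (helper16); it is `(Div.weberCuspData M).toWeberAnData` by
`rfl` -/
abbrev anData : WeberAnData M := Fermat.Agent.DS.Div.weberAnData M

theorem anData_eq : anData M = (Fermat.Agent.DS.Div.weberCuspData M).toWeberAnData := rfl

/-- **the canonical diamonds of `K1 M ⊗ ℚ̄`** -/
abbrev diaOne : (ZMod M)ˣ →* (K1L Kb M ≃ₐ[Kb] K1L Kb M) := diaBar (anData M)

theorem diaOne_apply (d : (ZMod M)ˣ) : diaOne M d = lbcEquiv Kb (diamondQ (anData M) d) := rfl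

/-- **The adapter**: the named inputs of the Hecke algebra of `X₁(M)`, `3 ≤ M`, from the twisted
product formula and the extension of the diamonds to the levels `(M; p)`. -/
def heckeInputsOne_of (hM : 3 ≤ M)
    (hpf : ∀ (p : Nat.Primes) (hpM : ¬ (p : ℕ) ∣ M),
      haveI : NeZero (p : ℕ) := ⟨p.2.ne_zero⟩
      TwistedPF M (p : ℕ) (diaOne M (unitOfPrime p hpM)))
    (hext : ∀ (d : (ZMod M)ˣ) (p : Nat.Primes), ¬ (p : ℕ) ∣ M →
      haveI : NeZero (p : ℕ) := ⟨p.2.ne_zero⟩
      ExtendsToLevel (diaOne M d) (p : ℕ)) : HeckeInputsOne M where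
  n := dOne M
  sep := isSepVarS_K1Bar M hM
  dia := diaOne M
  dia_ext := hext
  dia_rat := diaBar_rat (anData M)
  pf := hpf

@[simp] theorem heckeInputsOne_of_dia (hM : 3 ≤ M) (hpf) (hext) :
    (heckeInputsOne_of M hM hpf hext).dia = diaOne M := rfl

/-- the diamonds of the adapter fix `j` (`hdiaJ` of helper1's `kES_et_S`) -/
theorem heckeInputsOne_of_dia_jOne (hM : 3 ≤ M) (hpf) (hext) (d : (ZMod M)ˣ) :
    (heckeInputsOne_of M hM hpf hext).dia d (jOne Kb M) = jOne Kb M :=
  diaBar_jOne (anData M) d

end Fermat.Agent.DS.X1Hecke
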