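/-
PROGRAMME III (S48, Deligne–Serre), J1-PORT, leaf X1-HECKE-4b (helper24):
THE GENERATOR DESCRIPTION OF THE CANONICAL DIAMONDS `diaBar D d` ON `K1 M ⊗ ℚ̄`:
they fix (the base change of) `F₀(M) = ℚ(j(q^e) : e ∣ M)` and map `W_a` to `W_{a d}`.
(Coerced forms, for every proof of membership.)
-/
import Mathlib
import Fermat.Agent.DS.X1Hecke.DiaBar

set_option autoImplicit false
set_option linter.unusedSectionVars false
set_option linter.style.haveILetI false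

noncomputable section

namespace Fermat.Agent.DS.X1Hecke

open AlgebraicCurve ModularCurve HahnSeries IntermediateField Fermat.Agent.Hecke Fermat.Agent.Jac
  Fermat.Agent.Red Fermat.Agent.DS.X1 Fermat.Agent.X0 Fermat.Agent.DS.J1Spec

variable {M : ℕ} [NeZero M]

/-- the canonical diamonds fix the rational elements coming from `F₀(M)` -/
theorem coe_diaBar_of_mem_full (D : WeberAnData M) (d : (ZMod M)ˣ) {s : LaurentSeries ℚ}
    (hs : s ∈ modularFunctionFieldFull M) (h : coeffEmb Kb s ∈ K1L Kb M) :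
    ((diaBar D d ⟨coeffEmb Kb s, h⟩ : K1L Kb M) : LaurentSeries Kb) = coeffEmb Kb s := by
  have e : (⟨coeffEmb Kb s, h⟩ : K1L Kb M) =
      emb Kb (K1 M) ⟨s, modularFunctionFieldFull_le_K1 M hs⟩ := rfl
  rw [e, diaBar_emb, diamondQ_fixes_F0 D d _ hs]
  rfl

/-- the canonical diamonds fix `j(q^e)`, `e ∣ M` -/
theorem coe_diaBar_jqd (D : WeberAnData M) (d : (ZMod M)ˣ) {e : ℕ} [NeZero e] (he : e ∣ M)
    (h : coeffEmb Kb (qExpand ℚ e jq) ∈ K1L Kb M) :
    ((diaBar D d ⟨coeffEmb Kb (qExpand ℚ e jq), h⟩ : K1L Kb M) : LaurentSeries Kb) =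
      coeffEmb Kb (qExpand ℚ e jq) :=
  coe_diaBar_of_mem_full D d (jqd_mem_full M he) h

/-- the canonical diamonds fix the divisor expansions -/
theorem coe_diaBar_of_mem_divisorExpansions (D : WeberAnData M) (d : (ZMod M)ˣ)
    {s : LaurentSeries ℚ} (hs : s ∈ divisorExpansions M) (h : coeffEmb Kb s ∈ K1L Kb M) :
    ((diaBar D d ⟨coeffEmb Kb s, h⟩ : K1L Kb M) : LaurentSeries Kb) = coeffEmb Kb s :=
  coe_diaBar_of_mem_full D d (IntermediateField.subset_adjoin ℚ _ hs) h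

/-- **`⟨d⟩ W_a = W_{a d}`** for the canonical diamonds -/
theorem coe_diaBar_weberQ (D : WeberAnData M) (d : (ZMod M)ˣ) {a b : ℕ}
    (ha : 0 < a) (haM : a < M) (hb : 0 < b) (hbM : b < M)
    (hab : (b : ZMod M) = (a : ZMod M) * (d : ZMod M))
    (h : coeffEmb Kb (weberQ M a) ∈ K1L Kb M) :
    ((diaBar D d ⟨coeffEmb Kb (weberQ M a), h⟩ : K1L Kb M) : LaurentSeries Kb) =
      coeffEmb Kb (weberQ M b) := by
  have e : (⟨coeffEmb Kb (weberQ M a), h⟩ : K1L Kb M) =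
      emb Kb (K1 M) ⟨weberQ M a, weberQ_mem_K1 M ha haM⟩ := rfl
  rw [e, diaBar_emb, diamondQ_weberQ D d ha haM hb hbM hab]
  rfl

/-- the index `a d mod M` of `⟨d⟩ W_a` -/
theorem val_mul_unit_pos (d : (ZMod M)ˣ) {a : ℕ} (ha : 0 < a) (haM : a < M) :
    0 < ((a : ZMod M) * (d : ZMod M)).val := by
  rw [Nat.pos_iff_ne_zero, Ne, ZMod.val_eq_zero]
  intro h0
  have h1 : (a : ZMod M) = 0 := by
    have := congrArg (· * ((d⁻¹ : (ZMod M)ˣ) : ZMod M)) h0
    simpa [mul_assoc] using this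
  rw [ZMod.natCast_eq_zero_iff] at h1
  exact absurd (Nat.le_of_dvd ha h1) (not_le.mpr haM)

/-- **`⟨d⟩ W_a = W_{(a d).val}`** (the index normalised in `[1, M-1]`) -/
theorem coe_diaBar_weberQ_val (D : WeberAnData M) (d : (ZMod M)ˣ) {a : ℕ}
    (ha : 0 < a) (haM : a < M) (h : coeffEmb Kb (weberQ M a) ∈ K1L Kb M) :
    ((diaBar D d ⟨coeffEmb Kb (weberQ M a), h⟩ : K1L Kb M) : LaurentSeries Kb) =
      coeffEmb Kb (weberQ M ((a : ZMod M) * (d : ZMod M)).val) :=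
  coe_diaBar_weberQ D d ha haM (val_mul_unit_pos d ha haM) (ZMod.val_lt _)
    (ZMod.natCast_zmod_val _) h

/-- the index `(a ℓ) % M` for the diamond `⟨ℓ mod M⟩` (helper1's `diaIndex M ℓ a`) -/
theorem coe_diaBar_weberQ_mod (D : WeberAnData M) {ℓ : ℕ} (hℓ : Nat.Coprime ℓ M) {a : ℕ}
    (ha : 0 < a) (haM : a < M) (h : coeffEmb Kb (weberQ M a) ∈ K1L Kb M) :
    ((diaBar D (ZMod.unitOfCoprime ℓ hℓ) ⟨coeffEmb Kb (weberQ M a), h⟩ : K1L Kb M) :
      LaurentSeries Kb) = coeffEmb Kb (weberQ M ((a * ℓ) % M)) := by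
  have hval : ((a : ZMod M) * ((ZMod.unitOfCoprime ℓ hℓ : (ZMod M)ˣ) : ZMod M)).val =
      (a * ℓ) % M := by
    rw [ZMod.coe_unitOfCoprime, ← Nat.cast_mul, ZMod.val_natCast]
  rw [coe_diaBar_weberQ_val D _ ha haM h, hval]

end Fermat.Agent.DS.X1Hecke
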