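/-
PROGRAMME III (S48, Deligne–Serre), J1-PORT, leaf X1-HECKE-5 (helper24):
THE PLUG: the canonical diamonds extend to every level `(M; p)` (helper1's
`extendsToLevel_of_generators` on the generator description `DiaGen.lean`) and satisfy the twisted
product formula (helper1's `twistedPF_of_isDiamondAt` + helper15's degree bound), hence
**`heckeInputsOne M hM : HeckeInputsOne M`, unconditionally for `3 ≤ M`**.
-/
import Mathlib
import Fermat.Agent.DS.X1Hecke.Adapter
import Fermat.Agent.DS.X1Hecke.DiaGen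
import Fermat.Agent.DS.ES.DiamondLevExt
import Fermat.Agent.DS.ES.TwistedPFInst
import Fermat.Agent.DS.X1.LevDegreeAlong

set_option autoImplicit false
set_option linter.unusedSectionVars false
set_option linter.style.haveILetI false

noncomputable section

namespace Fermat.Agent.DS.X1Hecke

open AlgebraicCurve ModularCurve HahnSeries IntermediateField Fermat.Agent.Hecke Fermat.Agent.Jac
  Fermat.Agent.Red Fermat.Agent.DS.X1 Fermat.Agent.X0 Fermat.Agent.DS.J1Spec

variable (M : ℕ) [NeZero M]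

/-- **`dia_ext`**: every canonical diamond extends to every level `(M; p)`, `p ∤ M`, compatibly
with both degeneracy maps. -/
theorem diaBar_extendsToLevel (D : WeberAnData M) (d : (ZMod M)ˣ) (p : Nat.Primes)
    (hpM : ¬ (p : ℕ) ∣ M) :
    haveI : NeZero (p : ℕ) := ⟨p.2.ne_zero⟩
    ExtendsToLevel (diaBar D d) (p : ℕ) := by
  haveI : NeZero (p : ℕ) := ⟨p.2.ne_zero⟩
  haveI : Fact (p : ℕ).Prime := ⟨p.2⟩
  exact Fermat.Agent.DS.ES.extendsToLevel_of_generators iotaC M (p : ℕ) hpM (diaBar D d) d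
    (fun e _ heM => coe_diaBar_jqd D d heM _)
    (fun a ha haM => coe_diaBar_weberQ_val D d ha haM _)

/-- **The adapter with `dia_ext` discharged**: `HeckeInputsOne M`, `3 ≤ M`, from the twisted
product formula alone. -/
def heckeInputsOne_of_pf (hM : 3 ≤ M)
    (hpf : ∀ (p : Nat.Primes) (hpM : ¬ (p : ℕ) ∣ M),
      haveI : NeZero (p : ℕ) := ⟨p.2.ne_zero⟩
      TwistedPF M (p : ℕ) (diaOne M (unitOfPrime p hpM))) : HeckeInputsOne M :=
  heckeInputsOne_of M hM hpf (fun d p hpM => diaBar_extendsToLevel M (anData M) d p hpM)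

/-- the canonical diamond `⟨ℓ mod M⟩` is a diamond at `ℓ` in helper1's sense -/
theorem isDiamondAt_diaBar (D : WeberAnData M) (p : Nat.Primes) (hpM : ¬ (p : ℕ) ∣ M) :
    Fermat.Agent.DS.ES.IsDiamondAt M (p : ℕ) (diaBar D (unitOfPrime p hpM)) :=
  ⟨fun _ hs => coe_diaBar_of_mem_divisorExpansions D _ hs _,
    fun _ ha haM => coe_diaBar_weberQ_mod D _ ha haM _⟩

/-- **`pf`**: the twisted product formula for the canonical diamonds. -/
theorem diaBar_twistedPF (D : WeberAnData M) (hM : 2 ≤ M) (p : Nat.Primes)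
    (hpM : ¬ (p : ℕ) ∣ M) :
    haveI : NeZero (p : ℕ) := ⟨p.2.ne_zero⟩
    TwistedPF M (p : ℕ) (diaBar D (unitOfPrime p hpM)) := by
  haveI : NeZero (p : ℕ) := ⟨p.2.ne_zero⟩
  haveI : Fact (p : ℕ).Prime := ⟨p.2⟩
  have hcop : Nat.Coprime (p : ℕ) M := (Nat.Prime.coprime_iff_not_dvd p.2).mpr hpM
  exact Fermat.Agent.DS.ES.twistedPF_of_isDiamondAt M (p : ℕ) hpM _
    (isDiamondAt_diaBar M D p hpM)
    (finiteAlong_alphaOneBar Kb hM p.2 hcop) (finrankAlong_alphaOneBar_le Kb hM p.2 hcop)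

/-- **THE NAMED INPUTS OF THE HECKE ALGEBRA OF `X₁(M)`, UNCONDITIONALLY** (`3 ≤ M`). -/
def heckeInputsOne (hM : 3 ≤ M) : HeckeInputsOne M :=
  heckeInputsOne_of_pf M hM
    (fun p hpM => diaBar_twistedPF M (anData M) (le_trans (by norm_num) hM) p hpM)

@[simp] theorem heckeInputsOne_dia (hM : 3 ≤ M) : (heckeInputsOne M hM).dia = diaOne M := rfl

@[simp] theorem heckeInputsOne_n (hM : 3 ≤ M) : (heckeInputsOne M hM).n = dOne M := rfl

/-- the diamonds of `heckeInputsOne` fix `j` (`hdiaJ` of helper1's `kES_et_S`, second conjunct of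
helper4's `KPort`) -/
theorem heckeInputsOne_dia_jOne (hM : 3 ≤ M) (d : (ZMod M)ˣ) :
    (heckeInputsOne M hM).dia d (jOne Kb M) = jOne Kb M :=
  diaBar_jOne (anData M) d

/-- the diamonds of `heckeInputsOne` are the base changes of helper2's `diamondQ` -/
theorem heckeInputsOne_dia_apply (hM : 3 ≤ M) (d : (ZMod M)ˣ) :
    (heckeInputsOne M hM).dia d =
      lbcEquiv Kb (diamondQ (Fermat.Agent.DS.Div.weberAnData M) d) := rfl

end Fermat.Agent.DS.X1Hecke
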